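import Fermat.Agent.S48.Final.Defs

/-!
# S48 / FINAL, leaf F2 : attached mod `ℓ` representations from WT1 and MODL2
-/

set_option autoImplicit false

open ModularFormClass Polynomial

noncomputable section

namespace Fermat.Agent.S48.Final

variable {N : ℕ} [NeZero N]

/-- **F2**.  Unfold the contracts: `B := B_{WT1} ∪ {2, 3}`; `NeZero (N * ℓ)`; `hW` gives `θ`,
`hM (N * ℓ) ℓ` gives `ρ`; a prime `p ∤ N ℓ` is a `HK.GoodPrime (N * ℓ)` and `p ≠ ℓ`; the elements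
`a e : Zbar` of `hW` are equal to `aZ D hD p`, `eZ D p` by `Subtype.ext`. -/
theorem exists_attached (hW : StmtWT1) (hM : StmtModL2) (D : W1Data N) (hD : D.Good) :
    ∃ B : Finset ℕ, ∀ ℓ : ℕ, ℓ.Prime → ℓ ∉ B → ∀ Rm : ResMap ℓ,
      ∃ ρ : ResidualGaloisRep Rm.κ, Attached D hD Rm ρ := by
  obtain ⟨B, hB⟩ := hW N D hD
  refine ⟨B ∪ {2, 3}, fun ℓ hℓ hℓB Rm => ?_⟩
  simp only [Finset.mem_union, Finset.mem_insert, Finset.mem_singleton, not_or] at hℓB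
  obtain ⟨hℓB, h2, h3⟩ := hℓB
  have h5 : 5 ≤ ℓ := by
    have h1 := hℓ.two_le
    by_contra hlt
    have h4 : ℓ = 4 := by omega
    rw [h4] at hℓ
    exact absurd hℓ (by norm_num)
  haveI : NeZero (N * ℓ) := ⟨mul_ne_zero (NeZero.ne N) hℓ.ne_zero⟩
  obtain ⟨θ, hθ, hθp⟩ := hB ℓ hℓ hℓB Rm.κ Rm.φ
  obtain ⟨ρ, hker, hρ⟩ := hM (N * ℓ) ℓ hℓ h5 Rm.κ θ hθ
  have hne : ∀ p : ℕ, ¬ p ∣ N * ℓ → p ≠ ℓ := fun p hp h => hp (h ▸ Dvd.intro_left N rfl)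
  refine ⟨ρ, hker, fun p hp hpN => (hρ ⟨p, hp, hpN⟩ (hne p hpN)).1, fun p hp hpN A hA σ hσ => ?_⟩
  obtain ⟨a, e, ha, he, h1, h2⟩ := hθp ⟨p, hp, hpN⟩
  have ha' : a = aZ D hD p := Subtype.ext ha
  have he' : e = eZ D p := Subtype.ext he
  rw [(hρ ⟨p, hp, hpN⟩ (hne p hpN)).2 A hA σ hσ, h1, h2, ha', he']

end Fermat.Agent.S48.Final
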