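import Fermat.Agent.S48.Final.Defs
import Fermat.Agent.S48.Lift.Main

/-!
# S48 / FINAL, leaf FB : residue maps of `Zbar`, finiteness of images
-/

set_option autoImplicit false

open Polynomial

noncomputable section

namespace Fermat.Agent.S48.Final

/-- Every prime `ℓ` has a residue map.  Proof: `(ℓ : Zbar)` is not a unit (`1/ℓ` is not integral
over `ℤ`: `IsIntegrallyClosed ℤ`), so it lies in a maximal ideal `𝔪` (`Ideal.exists_le_maximal`);
`κ := Zbar ⧸ 𝔪` with `Ideal.Quotient.field`, `φ := Ideal.Quotient.mk 𝔪`; `CharP κ ℓ` because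
`(ℓ : κ) = 0` and `ℓ` is prime (`CharP.ofPrime`-style: `ringChar` divides `ℓ` and is not `1`);
algebraically closed: `Lift.isAlgClosed_of_surjective`. -/
theorem exists_resMap {ℓ : ℕ} (hℓ : ℓ.Prime) : Nonempty (ResMap ℓ) := by
  have hnu : ¬ IsUnit ((ℓ : ℕ) : Zbar) := by
    rintro ⟨u, hu⟩
    have h1 : IsIntegral ℤ (((u⁻¹ : Zbarˣ) : Zbar) : ℂ) := ((u⁻¹ : Zbarˣ) : Zbar).2
    have hℓ0 : ((ℓ : ℕ) : ℂ) ≠ 0 := Nat.cast_ne_zero.2 hℓ.ne_zero
    have h2 : (((u⁻¹ : Zbarˣ) : Zbar) : ℂ) = algebraMap ℚ ℂ (1 / (ℓ : ℚ)) := by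
      have h3 : ((u : Zbar) : ℂ) * (((u⁻¹ : Zbarˣ) : Zbar) : ℂ) = 1 := by
        have h4 : (u : Zbar) * ((u⁻¹ : Zbarˣ) : Zbar) = 1 := Units.mul_inv u
        exact_mod_cast congrArg (Subtype.val) h4
      rw [hu] at h3
      have h5 : (((ℓ : ℕ) : Zbar) : ℂ) = (ℓ : ℂ) := by simp
      rw [h5] at h3
      rw [map_div₀, map_one, map_natCast]
      field_simp
      linear_combination h3
    rw [h2] at h1
    have h3 : IsIntegral ℤ ((1 : ℚ) / (ℓ : ℚ)) :=
      (isIntegral_algebraMap_iff (algebraMap ℚ ℂ).injective).1 h1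
    obtain ⟨z, hz⟩ := IsIntegrallyClosed.isIntegral_iff.1 h3
    have hℓq : ((ℓ : ℕ) : ℚ) ≠ 0 := Nat.cast_ne_zero.2 hℓ.ne_zero
    have h4 : (z : ℚ) * (ℓ : ℚ) = 1 := by
      have h5 : (z : ℚ) = 1 / (ℓ : ℚ) := hz
      rw [h5]
      field_simp
    have h5 : z * (ℓ : ℤ) = 1 := by exact_mod_cast h4
    have h6 : ((ℓ : ℕ) : ℤ) ∣ 1 := ⟨z, by rw [mul_comm]; exact h5.symm⟩
    have h7 : ℓ ∣ 1 := by exact_mod_cast h6
    exact hℓ.one_lt.ne' (Nat.dvd_one.1 h7)
  obtain ⟨𝔪, h𝔪, hle⟩ := Ideal.exists_le_maximal (Ideal.span {((ℓ : ℕ) : Zbar)})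
    (by rw [Ne, Ideal.span_singleton_eq_top]; exact hnu)
  letI : Field (Zbar ⧸ 𝔪) := Ideal.Quotient.field 𝔪
  haveI hchar : CharP (Zbar ⧸ 𝔪) ℓ := by
    rw [CharP.charP_iff_prime_eq_zero hℓ]
    have h0 : Ideal.Quotient.mk 𝔪 ((ℓ : ℕ) : Zbar) = 0 :=
      Ideal.Quotient.eq_zero_iff_mem.2 (hle (Ideal.mem_span_singleton_self _))
    rwa [map_natCast] at h0
  haveI : IsAlgClosed (Zbar ⧸ 𝔪) :=
    Lift.isAlgClosed_of_surjective (R := Zbar) (K := ℂ) (Ideal.Quotient.mk 𝔪)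
      Ideal.Quotient.mk_surjective
  exact ⟨{ κ := Zbar ⧸ 𝔪, φ := Ideal.Quotient.mk 𝔪, surj := Ideal.Quotient.mk_surjective }⟩

/-- A nonzero algebraic integer is nonzero in the residue fields of almost all characteristics.
Proof: let `P = minpoly ℤ x` (monic, integral coefficients), `c = P.coeff 0 ≠ 0` (irreducible and
`x ≠ 0`); `c = - x * (…)` with `… ∈ Zbar`, so `φ x = 0` implies `(c : κ) = 0`, i.e. `ℓ ∣ c`.
Take `B := c.natAbs.primeFactors`. -/
theorem exists_bad_primes (x : Zbar) (hx : x ≠ 0) :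
    ∃ B : Finset ℕ, ∀ ℓ : ℕ, ℓ.Prime → ℓ ∉ B → ∀ Rm : ResMap ℓ, Rm.φ x ≠ 0 := by
  have hint : IsIntegral ℤ x := Algebra.IsIntegral.isIntegral x
  set P : ℤ[X] := minpoly ℤ x with hP
  have hc : P.coeff 0 ≠ 0 := by
    intro h0
    obtain ⟨Q, hQ⟩ := Polynomial.X_dvd_iff.2 h0
    have hirr : Irreducible P := minpoly.irreducible hint
    have hQu : IsUnit Q := (hirr.isUnit_or_isUnit hQ).resolve_left Polynomial.not_isUnit_X
    have h1 : aeval x P = 0 := minpoly.aeval ℤ x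
    rw [hQ, map_mul, aeval_X] at h1
    have h2 : aeval x Q = 0 := (mul_eq_zero.1 h1).resolve_left hx
    have h3 : IsUnit (aeval x Q) := hQu.map (aeval x)
    rw [h2] at h3
    exact not_isUnit_zero h3
  have hrel : x * aeval x P.divX + ((P.coeff 0 : ℤ) : Zbar) = 0 := by
    have h1 : aeval x P = 0 := minpoly.aeval ℤ x
    rw [← Polynomial.X_mul_divX_add P, map_add, map_mul, aeval_X, aeval_C] at h1
    simpa using h1
  refine ⟨(P.coeff 0).natAbs.primeFactors, fun ℓ hℓ hB Rm h0 => hB ?_⟩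
  have h1 := congrArg Rm.φ hrel
  rw [map_add, map_mul, h0, zero_mul, zero_add, map_intCast, map_zero,
    CharP.intCast_eq_zero_iff Rm.κ ℓ] at h1
  rw [Nat.mem_primeFactors]
  exact ⟨hℓ, Int.natCast_dvd.1 h1, Int.natAbs_ne_zero.2 hc⟩

theorem Basic_normal_algebraicClosure (inst : Algebra ℚ (AlgebraicClosure ℚ)) :
    @Normal ℚ (AlgebraicClosure ℚ) _ _ inst := by
  have h : inst = AlgebraicClosure.instAlgebra ℚ := Subsingleton.elim _ _
  rw [h]
  infer_instance

/-- A homomorphism of `G_ℚ` factoring through a finite level has finite image.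
Proof: replace `L` by its normal closure `E` (finite, Galois); `r σ` depends only on
`AlgEquiv.restrictNormalHom E σ ∈ E ≃ₐ[ℚ] E`, a finite group (compare
`Lib/FrobDensity/Main.exists_frobenius_pow`, `GAL/ModP/Glue.eq_of_level`). -/
theorem finite_range_of_level {X : Type} [Group X] (r : GQ →* X)
    (h : GaloisFactorsThroughFiniteLevel r) : Finite r.range := by
  obtain ⟨L, hL, h⟩ := h
  haveI := hL
  haveI hnor : Normal ℚ (AlgebraicClosure ℚ) := Basic_normal_algebraicClosure inferInstance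
  set E : IntermediateField ℚ (AlgebraicClosure ℚ) :=
    IntermediateField.normalClosure ℚ L (AlgebraicClosure ℚ) with hE
  haveI : FiniteDimensional ℚ E := normalClosure.is_finiteDimensional ℚ L (AlgebraicClosure ℚ)
  haveI : Normal ℚ E := normalClosure.normal ℚ L (AlgebraicClosure ℚ)
  have hLE : L ≤ E := L.le_normalClosure
  have hker : (AlgEquiv.restrictNormalHom (F := ℚ) (K₁ := AlgebraicClosure ℚ) E).ker ≤ r.ker := by
    intro σ hσ
    rw [MonoidHom.mem_ker] at hσ ⊢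
    refine h σ fun x hx => ?_
    have h1 := AlgEquiv.restrictNormal_commutes σ E ⟨x, hLE hx⟩
    have h2 : σ.restrictNormal E = 1 := hσ
    rw [h2] at h1
    exact h1.symm
  haveI : r.ker.FiniteIndex := Subgroup.finiteIndex_of_le hker
  exact Finite.of_equiv _ (QuotientGroup.quotientKerEquivRange r).toEquiv

theorem level_toHomUnits {κ : Type} [Field κ] (ρ : ResidualGaloisRep κ) :
    GaloisFactorsThroughFiniteLevel ρ.ρ.toHomUnits := by
  obtain ⟨L, hL, h⟩ := ρ.factorsThroughFiniteLevel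
  exact ⟨L, hL, fun σ hσ => Units.ext (h σ hσ)⟩

instance finite_img {κ : Type} [Field κ] (ρ : ResidualGaloisRep κ) : Finite (Img ρ) :=
  finite_range_of_level _ (level_toHomUnits ρ)

end Fermat.Agent.S48.Final
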