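import Fermat.Agent.S48.Final.Defs
import Fermat.Agent.S48.Rankin.Main
import Fermat.Agent.Lib.IS.FixedField

/-!
# S48 / FINAL, leaf F1 : outside a finite set of values, the `a_p` have small mass
-/

set_option autoImplicit false

open ModularFormClass

noncomputable section

namespace Fermat.Agent.S48.Final

variable {N : ℕ} [NeZero N]

/-- Every ring homomorphism `L → ℂ` from a number field `L ⊆ ℂ` extends to a ring homomorphism
`ℂ → ℂ`.  Proof: `Q := algebraicClosure ℚ ℂ` is normal and algebraic over `ℚ`; `φ` is a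
`ℚ`-algebra hom, it extends to `Q →ₐ[ℚ] Q` (`IsAlgClosed.lift` into `Q`, which is algebraically
closed; bijective by `Algebra.IsAlgebraic.algHom_bijective`), and an automorphism of `Q` extends to
an automorphism of `ℂ` by `Lib.IS.exists_ringEquiv_extending`. -/
theorem exists_extension (L : IntermediateField ℚ ℂ) [FiniteDimensional ℚ L] (φ : L →+* ℂ) :
    ∃ σ : ℂ →+* ℂ, ∀ x : L, σ (x : ℂ) = φ x := by
  have hLQ : L ≤ algebraicClosure ℚ ℂ := by
    intro x hx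
    rw [mem_algebraicClosure_iff]
    have h1 : IsAlgebraic ℚ (⟨x, hx⟩ : L) := Algebra.IsAlgebraic.isAlgebraic _
    exact h1.algHom L.val
  have : IsAlgClosure ℚ (algebraicClosure ℚ ℂ) := algebraicClosure.isAlgClosure ℚ ℂ
  have : Normal ℚ (algebraicClosure ℚ ℂ) := IsAlgClosure.normal ℚ _
  let ψ : L →ₐ[ℚ] ℂ := AlgHom.mk φ (fun q => by
    rw [eq_ratCast, eq_ratCast]
    exact map_ratCast φ q)
  have hψ : ∀ x, ψ x = φ x := fun _ => rfl
  obtain ⟨φ', hφ'⟩ := IntermediateField.exists_algHom_of_splits (F := ℚ) (E := algebraicClosure ℚ ℂ)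
    (K := ℂ) (L := IntermediateField.restrict hLQ)
    (fun s => ⟨Algebra.IsIntegral.isIntegral s, IsAlgClosed.splits _⟩)
    (ψ.comp (IntermediateField.restrictAlgEquiv hLQ).symm.toAlgHom)
  obtain ⟨σ, hσ⟩ := Lib.IS.exists_ringEquiv_extending (F := algebraicClosure ℚ ℂ) (K := ℂ)
    (φ'.restrictNormal' (algebraicClosure ℚ ℂ)).toRingEquiv
  refine ⟨σ.toRingHom, fun x => ?_⟩
  have h1 := hσ ⟨x, hLQ x.2⟩
  have h2 := AlgHom.restrictNormal_commutes φ' (algebraicClosure ℚ ℂ) ⟨x, hLQ x.2⟩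
  have h3 := DFunLike.congr_fun hφ' (IntermediateField.restrictAlgEquiv hLQ x)
  have h4 : (ψ.comp (IntermediateField.restrictAlgEquiv hLQ).symm.toAlgHom)
      (IntermediateField.restrictAlgEquiv hLQ x) = ψ x :=
    congrArg ψ ((IntermediateField.restrictAlgEquiv hLQ).symm_apply_apply x)
  exact (h1.trans h2).trans (h3.trans (h4.trans (hψ x)))

/-- Northcott: finitely many algebraic integers of a number field `L ⊆ ℂ` all of whose conjugates
are bounded. -/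
theorem mass_bound_finite (L : IntermediateField ℚ ℂ) [FiniteDimensional ℚ L] (B : ℝ) :
    {z : Zbar | ∃ x : L, (x : ℂ) = (z : ℂ) ∧ ∀ φ : L →+* ℂ, ‖φ x‖ ≤ B}.Finite := by
  classical
  have : NumberField L := { }
  have hfin := NumberField.Embeddings.finite_of_norm_le L ℂ B
  let g : L → Zbar := fun x => if h : IsIntegral ℤ (x : ℂ) then ⟨x, h⟩ else 0
  refine (hfin.image g).subset ?_
  rintro z ⟨x, hx, hB⟩
  have hz : IsIntegral ℤ (x : ℂ) := hx ▸ z.2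
  refine ⟨x, ⟨?_, hB⟩, ?_⟩
  · exact (isIntegral_algebraMap_iff (A := L) (B := ℂ) (algebraMap L ℂ).injective).1 hz
  · simp only [g, dif_pos hz]
    exact Subtype.ext hx

/-- **F1**.  For every `η > 0` there are a finite set `𝒴` of algebraic integers and a constant `C`
such that the primes `p ∤ N` with `a_p ∉ 𝒴` have mass `≤ η (log (1/(s-1)) + C)`.

Proof.  `L` from `hD.field`, `r = [L : ℚ]` embeddings `φ₁ … φ_r : L →+* ℂ` (a `Fintype`), extended to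
`σ_i : ℂ →+* ℂ` (`exists_extension`); `hD.conj σ_i` gives `W1Data` `D_i` with coefficients
`σ_i (a_n)`; `Rankin.rankin N D_i.ε D_i.f D_i.one D_i.hecke` gives `C_i`.  Put `c := r / η`,
`𝒴 := {x ∈ L integral : ‖φ x‖ ≤ √c for all φ}` (finite: `NumberField.Embeddings.finite_of_norm_le`),
transported to `Zbar`.  If `a_p ∉ 𝒴` then `‖σ_i a_p‖² > c` for some `i`, so
`1 ≤ (1/c) ∑_i ‖σ_i a_p‖²`, and
`∑_{p ∈ S} p^{-s} ≤ (1/c) ∑_i ∑_{p ∈ S} ‖σ_i a_p‖² p^{-s} ≤ (r/c) (log (1/(s-1)) + max C_i)`. -/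
theorem mass_bound (D : W1Data N) (hD : D.Good) (η : ℝ) (hη : 0 < η) :
    ∃ (𝒴 : Finset Zbar) (C : ℝ), ∀ s : ℝ, 1 < s → s ≤ 2 → ∀ S : Finset ℕ,
      (∀ p ∈ S, p.Prime ∧ ¬ p ∣ N ∧ aZ D hD p ∉ 𝒴) →
        ∑ p ∈ S, (p : ℝ) ^ (-s) ≤ η * (Real.log (1 / (s - 1)) + C) := by
  classical
  obtain ⟨L, hLfin, hL⟩ := hD.field
  have : NumberField L := { }
  choose σ hσ using fun φ : L →+* ℂ => exists_extension L φ
  choose D' hD' using fun φ : L →+* ℂ => hD.conj (σ φ)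
  choose C hC using fun φ : L →+* ℂ =>
    Rankin.rankin N (D' φ).ε (D' φ).f (D' φ).one (D' φ).hecke
  set r : ℕ := Fintype.card (L →+* ℂ) with hr
  have hr0 : (0 : ℝ) < r := by
    have : Nonempty (L →+* ℂ) := ⟨algebraMap L ℂ⟩
    exact_mod_cast Fintype.card_pos
  set c : ℝ := r / η with hc
  have hc0 : 0 < c := div_pos hr0 hη
  refine ⟨(mass_bound_finite L (c + 1)).toFinset, ∑ φ, |C φ|, fun s hs hs2 S hS => ?_⟩
  have hkey : ∀ p ∈ S, (p : ℝ) ^ (-s) ≤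
      (1 / c) * ∑ φ : L →+* ℂ, ‖qCoeff (D' φ).f p‖ ^ 2 * (p : ℝ) ^ (-s) := by
    intro p hp
    have hnot := (hS p hp).2.2
    rw [Set.Finite.mem_toFinset, Set.mem_ofPred_eq] at hnot
    push Not at hnot
    obtain ⟨φ, hφ⟩ := hnot ⟨qCoeff D.f p, hL p⟩ rfl
    have h1 : ‖qCoeff (D' φ).f p‖ = ‖φ ⟨qCoeff D.f p, hL p⟩‖ := by
      rw [hD', ← hσ]
    have h2 : c ≤ ‖qCoeff (D' φ).f p‖ ^ 2 := by
      rw [h1]
      nlinarith
    have hp0 : 0 ≤ (p : ℝ) ^ (-s) := Real.rpow_nonneg (Nat.cast_nonneg _) _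
    have h3 : ‖qCoeff (D' φ).f p‖ ^ 2 * (p : ℝ) ^ (-s) ≤
        ∑ φ : L →+* ℂ, ‖qCoeff (D' φ).f p‖ ^ 2 * (p : ℝ) ^ (-s) :=
      Finset.single_le_sum (f := fun φ : L →+* ℂ => ‖qCoeff (D' φ).f p‖ ^ 2 * (p : ℝ) ^ (-s))
        (fun φ _ => by positivity) (Finset.mem_univ φ)
    rw [one_div, le_inv_mul_iff₀ hc0]
    exact (mul_le_mul_of_nonneg_right h2 hp0).trans h3
  calc ∑ p ∈ S, (p : ℝ) ^ (-s)
      ≤ ∑ p ∈ S, (1 / c) * ∑ φ : L →+* ℂ, ‖qCoeff (D' φ).f p‖ ^ 2 * (p : ℝ) ^ (-s) :=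
        Finset.sum_le_sum hkey
    _ = (1 / c) * ∑ φ : L →+* ℂ, ∑ p ∈ S, ‖qCoeff (D' φ).f p‖ ^ 2 * (p : ℝ) ^ (-s) := by
        rw [← Finset.mul_sum, Finset.sum_comm]
    _ ≤ (1 / c) * ∑ _φ : L →+* ℂ, (Real.log (1 / (s - 1)) + ∑ φ, |C φ|) := by
        gcongr with φ
        refine (hC φ s hs hs2 S fun p hp => ⟨(hS p hp).1, (hS p hp).2.1⟩).trans ?_
        gcongr
        exact (le_abs_self _).trans
          (Finset.single_le_sum (f := fun φ => |C φ|) (fun φ _ => abs_nonneg _) (Finset.mem_univ φ))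
    _ = η * (Real.log (1 / (s - 1)) + ∑ φ, |C φ|) := by
        rw [Finset.sum_const, Finset.card_univ, nsmul_eq_mul, ← mul_assoc, ← hr, hc]
        congr 1
        field_simp

end Fermat.Agent.S48.Final
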