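import Fermat.Agent.S48.Final.Basic
import Fermat.Agent.S48.Final.Mass
import Fermat.Agent.S48.Grp.Main

/-!
# S48 / FINAL, leaf F3 : the images of the attached mod `ℓ` representations have bounded order
-/

set_option autoImplicit false

open ModularFormClass Polynomial

noncomputable section

namespace Fermat.Agent.S48.Final

variable {N : ℕ} [NeZero N]

/-- `ε(u)` as an algebraic integer, `u` a unit. -/
def eU (D : W1Data N) (u : (ZMod N)ˣ) : Zbar := ⟨D.ε (u : ZMod N), isIntegral_eps D.ε _⟩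

open Classical in
/-- The pairs `(a, ε(u))`, `a ∈ 𝒴`, and the pairs `(a ε(u)⁻¹, ε(u)⁻¹)` (trace and determinant of the
inverse). -/
def pairSet (D : W1Data N) (𝒴 : Finset Zbar) : Finset (Zbar × Zbar) :=
  ((𝒴 ×ˢ (Finset.univ : Finset (ZMod N)ˣ)).image fun x => (x.1, eU D x.2)) ∪
    ((𝒴 ×ˢ (Finset.univ : Finset (ZMod N)ˣ)).image fun x => (x.1 * eU D x.2⁻¹, eU D x.2⁻¹))

open Classical in
/-- The corresponding quadratic polynomials over a residue field. -/
def polySet (D : W1Data N) (𝒴 : Finset Zbar) {ℓ : ℕ} (Rm : ResMap ℓ) : Finset Rm.κ[X] :=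
  (pairSet D 𝒴).image fun x => X ^ 2 - C (Rm.φ x.1) * X + C (Rm.φ x.2)

theorem card_polySet_le (D : W1Data N) (𝒴 : Finset Zbar) {ℓ : ℕ} (Rm : ResMap ℓ) :
    (polySet D 𝒴 Rm).card ≤ (pairSet D 𝒴).card := by
  classical
  unfold polySet
  exact Finset.card_image_le

/-- (aux. F3a) characteristic polynomial in dimension two. -/
theorem Bound_charpoly_eq {κ V : Type*} [Field κ] [AddCommGroup V] [Module κ V]
    [Module.Finite κ V] (hV : Module.finrank κ V = 2) (g : Module.End κ V) :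
    LinearMap.charpoly g = X ^ 2 - C (LinearMap.trace κ V g) * X + C (LinearMap.det g) := by
  let b := Module.finBasisOfFinrankEq κ V hV
  rw [← LinearMap.charpoly_toMatrix g b, Matrix.charpoly_fin_two,
    LinearMap.trace_eq_matrix_trace κ b, LinearMap.det_toMatrix b]

theorem Bound_quad_inj {R : Type*} [CommRing R] {t d t' d' : R}
    (h : (X ^ 2 - C t * X + C d : R[X]) = X ^ 2 - C t' * X + C d') : t = t' ∧ d = d' := by
  have h1 := congrArg (fun p : R[X] => p.coeff 1) h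
  have h0 := congrArg (fun p : R[X] => p.coeff 0) h
  simp [coeff_X_pow, coeff_C, coeff_X] at h1 h0
  exact ⟨h1, h0⟩

theorem Bound_det_inv {κ V : Type*} [Field κ] [AddCommGroup V] [Module κ V]
    (g : (Module.End κ V)ˣ) :
    LinearMap.det ((g⁻¹ : (Module.End κ V)ˣ) : Module.End κ V) =
      (LinearMap.det (g : Module.End κ V))⁻¹ := by
  apply eq_inv_of_mul_eq_one_right
  rw [← map_mul, Units.mul_inv, map_one]

theorem Bound_trace_inv {κ V : Type*} [Field κ] [AddCommGroup V] [Module κ V]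
    [Module.Finite κ V] (hV : Module.finrank κ V = 2) (g : (Module.End κ V)ˣ) :
    LinearMap.trace κ V ((g⁻¹ : (Module.End κ V)ˣ) : Module.End κ V) =
      LinearMap.trace κ V (g : Module.End κ V) * (LinearMap.det (g : Module.End κ V))⁻¹ := by
  set t := LinearMap.trace κ V (g : Module.End κ V) with ht
  set d := LinearMap.det (g : Module.End κ V) with hd
  have hd0 : d ≠ 0 := by
    intro h0
    have h1 : d * LinearMap.det ((g⁻¹ : (Module.End κ V)ˣ) : Module.End κ V) = 1 := by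
      rw [hd, ← map_mul, Units.mul_inv, map_one]
    rw [h0, zero_mul] at h1
    exact zero_ne_one h1
  have hCH := LinearMap.aeval_self_charpoly (g : Module.End κ V)
  rw [Bound_charpoly_eq hV] at hCH
  have h1 : (g : Module.End κ V) * g - t • (g : Module.End κ V) + d • (1 : Module.End κ V) = 0 := by
    have : aeval (g : Module.End κ V) (X ^ 2 - C t * X + C d : κ[X]) =
        (g : Module.End κ V) * g - t • (g : Module.End κ V) + d • (1 : Module.End κ V) := by
      simp [sq, Algebra.smul_def]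
    rw [← this]
    exact hCH
  have h2 : (g : Module.End κ V) - t • (1 : Module.End κ V) +
      d • ((g⁻¹ : (Module.End κ V)ˣ) : Module.End κ V) = 0 := by
    have h3 := congrArg (fun f : Module.End κ V => f * ((g⁻¹ : (Module.End κ V)ˣ) : Module.End κ V)) h1
    simp only [add_mul, sub_mul, zero_mul, mul_assoc, Units.mul_inv, mul_one, smul_mul_assoc,
      one_mul] at h3
    exact h3
  have h4 := congrArg (LinearMap.trace κ V) h2
  rw [map_add, map_sub, map_smul, map_smul, LinearMap.trace_one, hV, map_zero, ← ht] at h4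
  simp only [smul_eq_mul] at h4
  field_simp
  push_cast at h4
  linear_combination h4

theorem Bound_charpoly_conj {κ V : Type*} [Field κ] [AddCommGroup V] [Module κ V]
    [Module.Finite κ V] (hV : Module.finrank κ V = 2) (x y : (Module.End κ V)ˣ) :
    LinearMap.charpoly ((y * x * y⁻¹ : (Module.End κ V)ˣ) : Module.End κ V) =
      LinearMap.charpoly (x : Module.End κ V) := by
  rw [Bound_charpoly_eq hV, Bound_charpoly_eq hV]
  have h1 : LinearMap.trace κ V ((y * x * y⁻¹ : (Module.End κ V)ˣ) : Module.End κ V) =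
      LinearMap.trace κ V (x : Module.End κ V) := by
    rw [Units.val_mul, LinearMap.trace_mul_comm, Units.val_mul, ← mul_assoc, Units.inv_mul, one_mul]
  have h2 : LinearMap.det ((y * x * y⁻¹ : (Module.End κ V)ˣ) : Module.End κ V) =
      LinearMap.det (x : Module.End κ V) := by
    rw [Units.val_mul, Units.val_mul, map_mul, map_mul, mul_comm, ← mul_assoc, ← map_mul,
      Units.inv_mul, map_one, one_mul]
  rw [h1, h2]

theorem Bound_eU_mul_inv (D : W1Data N) (u : (ZMod N)ˣ) : eU D u * eU D u⁻¹ = 1 := by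
  apply Subtype.ext
  show D.ε (u : ZMod N) * D.ε ((u⁻¹ : (ZMod N)ˣ) : ZMod N) = 1
  rw [← map_mul, ← Units.val_mul, mul_inv_cancel, Units.val_one, map_one]

/-- (aux. F3a) `polySet` is stable under passing to the inverse. -/
theorem Bound_mem_polySet_inv (D : W1Data N) (𝒴 : Finset Zbar) {ℓ : ℕ} (Rm : ResMap ℓ)
    {V : Type} [AddCommGroup V] [Module Rm.κ V] [Module.Finite Rm.κ V]
    (hV : Module.finrank Rm.κ V = 2) (g : (Module.End Rm.κ V)ˣ)
    (hg : LinearMap.charpoly (g : Module.End Rm.κ V) ∈ polySet D 𝒴 Rm) :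
    LinearMap.charpoly ((g⁻¹ : (Module.End Rm.κ V)ˣ) : Module.End Rm.κ V) ∈ polySet D 𝒴 Rm := by
  classical
  unfold polySet at hg ⊢
  obtain ⟨⟨a, e⟩, hae, heq⟩ := Finset.mem_image.1 hg
  rw [Bound_charpoly_eq hV] at heq
  obtain ⟨ht, hd⟩ := Bound_quad_inj heq
  simp only at ht hd
  rw [Bound_charpoly_eq hV, Bound_trace_inv hV, Bound_det_inv, ← ht, ← hd]
  unfold pairSet at hae ⊢
  rcases Finset.mem_union.1 hae with h | h
  · obtain ⟨⟨y, u⟩, hyu, hpair⟩ := Finset.mem_image.1 h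
    simp only [Prod.mk.injEq] at hpair
    obtain ⟨rfl, rfl⟩ := hpair
    have hinv : (Rm.φ (eU D u))⁻¹ = Rm.φ (eU D u⁻¹) := by
      apply inv_eq_of_mul_eq_one_right
      rw [← map_mul, Bound_eU_mul_inv, map_one]
    refine Finset.mem_image.2 ⟨(y * eU D u⁻¹, eU D u⁻¹), Finset.mem_union_right _
      (Finset.mem_image.2 ⟨(y, u), hyu, rfl⟩), ?_⟩
    simp only
    rw [hinv, map_mul]
  · obtain ⟨⟨y, u⟩, hyu, hpair⟩ := Finset.mem_image.1 h
    simp only [Prod.mk.injEq] at hpair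
    obtain ⟨rfl, rfl⟩ := hpair
    have hinv : (Rm.φ (eU D u⁻¹))⁻¹ = Rm.φ (eU D u) := by
      apply inv_eq_of_mul_eq_one_left
      rw [← map_mul, Bound_eU_mul_inv, map_one]
    refine Finset.mem_image.2 ⟨(y, eU D u), Finset.mem_union_left _
      (Finset.mem_image.2 ⟨(y, u), hyu, rfl⟩), ?_⟩
    simp only
    have e : Rm.φ (y * eU D u⁻¹) * Rm.φ (eU D u) = Rm.φ y := by
      rw [← map_mul, mul_assoc, mul_comm (eU D u⁻¹), Bound_eU_mul_inv, mul_one]
    rw [hinv, e]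

/-- **F3a** (density step).  Let `G = Img ρ`, `π = ρ.ρ.toHomUnits.rangeRestrict` (surjective, finite
level by `level_toHomUnits`), `Cset := {g : G | charpoly g ∉ polySet ∧ charpoly g⁻¹ ∉ polySet}`...
more precisely take `Cset := {g | charpoly g ∉ polySet}`: it is stable under conjugation
(`LinearMap.charpoly` is conjugation invariant) and under inversion, because `polySet` is stable under
`X² - tX + d ↦ X² - (t/d) X + 1/d` for the pairs `(a, ε(u)) ↔ (a ε(u)⁻¹, ε(u)⁻¹)`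
(`eU D u * eU D u⁻¹ = 1`; for a two dimensional `g` with `charpoly g = X² - tX + d` one has
`charpoly g⁻¹ = X² - (t/d) X + 1/d`).
Apply `hC` with `T := (N * ℓ).primeFactors`, `P := {p | p.Prime ∧ ¬ p ∣ N ∧ aZ D hD p ∉ 𝒴}`: if `σ` is a
Frobenius at `p ∉ T` with `π σ ∈ Cset` then by `hρ.frob` the pair `(aZ p, eZ p) = (aZ p, eU (unit of p))`
is not in `pairSet`, so `aZ p ∉ 𝒴`.  If `24 * |Cset| > |G|` take `δ := 1/24`: for `s → 1⁺` one gets
`(1/24) log (1/(s-1)) ≤ ∑_{p ∈ S} p^{-s} ≤ (1/48) (log (1/(s-1)) + C)`, which is false as soon as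
`log (1/(s-1)) > C` (choose `s` with `1 < s < min s₀ 2` and `s - 1 < exp (-|C| - 1)`). -/
theorem density_step (hC : StmtCheb) (D : W1Data N) (hD : D.Good) (𝒴 : Finset Zbar) (C : ℝ)
    (hmass : ∀ s : ℝ, 1 < s → s ≤ 2 → ∀ S : Finset ℕ,
      (∀ p ∈ S, p.Prime ∧ ¬ p ∣ N ∧ aZ D hD p ∉ 𝒴) →
        ∑ p ∈ S, (p : ℝ) ^ (-s) ≤ (1 / 48) * (Real.log (1 / (s - 1)) + C))
    {ℓ : ℕ} (hℓ : ℓ.Prime) (Rm : ResMap ℓ) (ρ : ResidualGaloisRep Rm.κ)
    (hρ : Attached D hD Rm ρ) :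
    24 * Nat.card {g : Img ρ //
        LinearMap.charpoly (((g : (Module.End Rm.κ ρ.V)ˣ) : Module.End Rm.κ ρ.V)) ∉ polySet D 𝒴 Rm}
      ≤ Nat.card (Img ρ) := by
  classical
  by_contra hcon
  push Not at hcon
  have hV := ρ.finrank_eq
  let π : GQ →* Img ρ := ρ.ρ.toHomUnits.rangeRestrict
  have hπs : Function.Surjective π := MonoidHom.rangeRestrict_surjective _
  have hπl : GaloisFactorsThroughFiniteLevel π := by
    obtain ⟨L, hL, h⟩ := level_toHomUnits ρ
    exact ⟨L, hL, fun σ hσ => Subtype.ext (h σ hσ)⟩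
  let Cset : Set (Img ρ) := {g | LinearMap.charpoly
    (((g : (Module.End Rm.κ ρ.V)ˣ) : Module.End Rm.κ ρ.V)) ∉ polySet D 𝒴 Rm}
  have hconj : ∀ x y : Img ρ, x ∈ Cset → y * x * y⁻¹ ∈ Cset := by
    intro x y hx
    change LinearMap.charpoly ((((y * x * y⁻¹ : Img ρ) : (Module.End Rm.κ ρ.V)ˣ) :
      Module.End Rm.κ ρ.V)) ∉ polySet D 𝒴 Rm
    have e : ((y * x * y⁻¹ : Img ρ) : (Module.End Rm.κ ρ.V)ˣ) =
        (y : (Module.End Rm.κ ρ.V)ˣ) * x * (y : (Module.End Rm.κ ρ.V)ˣ)⁻¹ := rfl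
    rw [e, Bound_charpoly_conj hV]
    exact hx
  have hinv : ∀ x : Img ρ, x ∈ Cset → x⁻¹ ∈ Cset := by
    intro x hx hx'
    apply hx
    have h1 := Bound_mem_polySet_inv D 𝒴 Rm hV ((x⁻¹ : Img ρ) : (Module.End Rm.κ ρ.V)ˣ) hx'
    have e : (((x⁻¹ : Img ρ) : (Module.End Rm.κ ρ.V)ˣ))⁻¹ = (x : (Module.End Rm.κ ρ.V)ˣ) := by
      rw [Subgroup.coe_inv, inv_inv]
    rwa [e] at h1
  let T : Finset ℕ := (N * ℓ).primeFactors
  let P : Set ℕ := {p | p.Prime ∧ ¬ p ∣ N ∧ aZ D hD p ∉ 𝒴}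
  have hNℓ : N * ℓ ≠ 0 := mul_ne_zero (NeZero.ne N) hℓ.ne_zero
  have hP : ∀ p : ℕ, p.Prime → p ∉ T → ∀ A : ValuationSubring (AlgebraicClosure ℚ),
      A.LiesOverPrime p → ∀ σ : GQ, A.IsFrobeniusAt σ p → π σ ∈ Cset → p ∈ P := by
    intro p hp hpT A hA σ hσ hmem
    have hpN : ¬ p ∣ N * ℓ := fun h => hpT (Nat.mem_primeFactors.2 ⟨hp, h, hNℓ⟩)
    have hpN' : ¬ p ∣ N := fun h => hpN (h.mul_right ℓ)
    refine ⟨hp, hpN', fun hY => ?_⟩
    apply hmem
    change LinearMap.charpoly (ρ.ρ σ) ∈ polySet D 𝒴 Rm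
    rw [hρ.frob p hp hpN A hA σ hσ]
    have hcop : p.Coprime N := (Nat.Prime.coprime_iff_not_dvd hp).2 hpN'
    have he : eZ D p = eU D (ZMod.unitOfCoprime p hcop) := by
      apply Subtype.ext
      show D.ε (p : ZMod N) = D.ε ((ZMod.unitOfCoprime p hcop : (ZMod N)ˣ) : ZMod N)
      rw [ZMod.coe_unitOfCoprime]
    unfold polySet pairSet
    refine Finset.mem_image.2 ⟨(aZ D hD p, eU D (ZMod.unitOfCoprime p hcop)),
      Finset.mem_union_left _ (Finset.mem_image.2 ⟨(aZ D hD p, ZMod.unitOfCoprime p hcop),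
        Finset.mem_product.2 ⟨hY, Finset.mem_univ _⟩, rfl⟩), ?_⟩
    simp only
    rw [he]
  have hδ : (1 / 24 : ℝ) * (Nat.card (Img ρ) : ℝ) < (Nat.card Cset : ℝ) := by
    have h1 : Nat.card (Img ρ) < 24 * Nat.card Cset := hcon
    have h2 : (Nat.card (Img ρ) : ℝ) < 24 * (Nat.card Cset : ℝ) := by exact_mod_cast h1
    linarith
  obtain ⟨s₀, hs₀, hS⟩ := hC (Img ρ) π hπs hπl Cset hconj hinv T P hP (1 / 24) hδ
  -- choice of `s`
  set t : ℝ := min (min ((s₀ - 1) / 2) 1) (Real.exp (-|C| - 1)) with ht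
  have ht0 : 0 < t := by
    apply lt_min (lt_min (by linarith) one_pos) (Real.exp_pos _)
  have ht1 : t ≤ (s₀ - 1) / 2 := (min_le_left _ _).trans (min_le_left _ _)
  have ht2 : t ≤ 1 := (min_le_left _ _).trans (min_le_right _ _)
  have ht3 : t ≤ Real.exp (-|C| - 1) := min_le_right _ _
  have hlog : C < Real.log (1 / t) := by
    rw [one_div, Real.log_inv]
    have h1 : Real.log t ≤ -|C| - 1 := by
      have := Real.log_le_log ht0 ht3
      rwa [Real.log_exp] at this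
    have h2 := le_abs_self C
    linarith
  obtain ⟨S, hS1, hS2⟩ := hS (1 + t) (by linarith) (by linarith)
  have h3 := hmass (1 + t) (by linarith) (by linarith) S (fun p hp => (hS1 p hp).2)
  rw [add_sub_cancel_left] at hS2 h3
  linarith

/-- **F3b**.  `mass_bound` with `η = 1/48`, `density_step` and `Grp.card_le_main` applied to
`G = Img ρ`, `ρ_G := (Units.coeHom _).comp (Img ρ).subtype`, `Y := polySet D 𝒴 Rm`,
`hker` from `hρ.ker` (every element of `Img ρ` is `ρ.ρ.toHomUnits σ`).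
`A₀ := 48 * (pairSet D 𝒴).card`, `B := Finset.range (4 * (pairSet D 𝒴).card + 1)`. -/
theorem card_img_le (hC : StmtCheb) (D : W1Data N) (hD : D.Good) :
    ∃ (A₀ : ℕ) (B : Finset ℕ), ∀ ℓ : ℕ, ℓ.Prime → ℓ ∉ B → ∀ (Rm : ResMap ℓ)
      (ρ : ResidualGaloisRep Rm.κ), Attached D hD Rm ρ →
        Nat.card (Img ρ) ≤ A₀ ∧ ¬ ℓ ∣ Nat.card (Img ρ) := by
  obtain ⟨𝒴, C, hmass⟩ := mass_bound D hD (1 / 48) (by norm_num)
  refine ⟨48 * (pairSet D 𝒴).card, Finset.range (4 * (pairSet D 𝒴).card + 1),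
    fun ℓ hℓ hℓB Rm ρ hρ => ?_⟩
  have : Fact ℓ.Prime := ⟨hℓ⟩
  have hstep := density_step hC D hD 𝒴 C hmass hℓ Rm ρ hρ
  let ρG : Img ρ →* Module.End Rm.κ ρ.V := (Units.coeHom _).comp (Img ρ).subtype
  have hker : ∀ u : Img ρ, (∀ g : Img ρ, (ρG (g * u)).charpoly = (ρG g).charpoly) → u = 1 := by
    rintro ⟨_, σ, rfl⟩ h
    have h1 := hρ.ker σ (fun τ => by
      have h2 := h ⟨ρ.ρ.toHomUnits τ, τ, rfl⟩
      rw [map_mul]
      exact h2)
    apply Subtype.ext
    apply Units.ext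
    exact h1
  have hcard := card_polySet_le D 𝒴 Rm
  have hlt : 4 * (polySet D 𝒴 Rm).card < ℓ := by
    rw [Finset.mem_range] at hℓB
    omega
  obtain ⟨h1, h2⟩ := Grp.card_le_main ℓ ρ.finrank_eq ρG hker (polySet D 𝒴 Rm) hstep hlt
  exact ⟨h1.trans (Nat.mul_le_mul_left _ hcard), h2⟩

end Fermat.Agent.S48.Final
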