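import Fermat.Agent.S48.Contracts

/-!
# S48 / FINAL : definitions

`ResMap ℓ` (a residue field of `Zbar` of characteristic `ℓ`), the algebraic integers `aZ`, `eZ`,
`Attached` (a mod `ℓ` representation attached to weight one data), `Bounded`, `GoodAway`.
-/

set_option autoImplicit false

open CongruenceSubgroup UpperHalfPlane ModularFormClass Polynomial
open scoped MatrixGroups ModularForm

noncomputable section

namespace Fermat.Agent.S48.Final

/-- A surjection of `Zbar` onto an algebraically closed field of characteristic `ℓ`. -/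
structure ResMap (ℓ : ℕ) where
  κ : Type
  [instField : Field κ]
  [instCharP : CharP κ ℓ]
  [instAlgClosed : IsAlgClosed κ]
  φ : Zbar →+* κ
  surj : Function.Surjective φ

attribute [instance] ResMap.instField ResMap.instCharP ResMap.instAlgClosed

variable {N : ℕ} [NeZero N]

/-- The values of a Dirichlet character are algebraic integers. -/
theorem isIntegral_eps (ε : DirichletCharacter ℂ N) (x : ZMod N) : IsIntegral ℤ (ε x) := by
  by_cases hx : IsUnit x
  · obtain ⟨u, rfl⟩ := hx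
    have h1 : (ε (u : ZMod N)) ^ Fintype.card (ZMod N)ˣ = 1 := by
      rw [← map_pow, ← Units.val_pow_eq_pow_val, pow_card_eq_one, Units.val_one, map_one]
    exact IsIntegral.of_pow Fintype.card_pos (by rw [h1]; exact isIntegral_one)
  · rw [MulChar.map_nonunit ε hx]
    exact isIntegral_zero

/-- `a_n` as an algebraic integer. -/
def aZ (D : W1Data N) (hD : D.Good) (n : ℕ) : Zbar := ⟨qCoeff D.f n, hD.integral n⟩

/-- `ε(n)` as an algebraic integer. -/
def eZ (D : W1Data N) (n : ℕ) : Zbar := ⟨D.ε (n : ZMod N), isIntegral_eps D.ε _⟩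

@[simp] theorem coe_aZ (D : W1Data N) (hD : D.Good) (n : ℕ) : (aZ D hD n : ℂ) = qCoeff D.f n := rfl

@[simp] theorem coe_eZ (D : W1Data N) (n : ℕ) : (eZ D n : ℂ) = D.ε (n : ZMod N) := rfl

/-- `ρ` is a mod `ℓ` representation attached to `D`. -/
structure Attached (D : W1Data N) (hD : D.Good) {ℓ : ℕ} (Rm : ResMap ℓ)
    (ρ : ResidualGaloisRep Rm.κ) : Prop where
  ker : KerProp ρ.ρ
  unram : ∀ p : ℕ, p.Prime → ¬ p ∣ N * ℓ → ρ.IsUnramifiedAt p
  frob : ∀ p : ℕ, p.Prime → ¬ p ∣ N * ℓ →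
    ∀ A : ValuationSubring (AlgebraicClosure ℚ), A.LiesOverPrime p →
      ∀ σ : GQ, A.IsFrobeniusAt σ p →
        LinearMap.charpoly (ρ.ρ σ) =
          X ^ 2 - C (Rm.φ (aZ D hD p)) * X + C (Rm.φ (eZ D p))

/-- The image of a residual representation, as a group. -/
abbrev Img {κ : Type} [Field κ] (ρ : ResidualGaloisRep κ) : Subgroup (Module.End κ ρ.V)ˣ :=
  ρ.ρ.toHomUnits.range

/-- For all primes `ℓ ∉ B` and all residue maps there is an attached representation whose image
has order `≤ A₀` and prime to `ℓ`. -/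
structure Bounded (D : W1Data N) (hD : D.Good) (A₀ : ℕ) (B : Finset ℕ) : Prop where
  ex : ∀ ℓ : ℕ, ℓ.Prime → ℓ ∉ B → ∀ Rm : ResMap ℓ, ∃ ρ : ResidualGaloisRep Rm.κ,
    Attached D hD Rm ρ ∧ Nat.card (Img ρ) ≤ A₀ ∧ ¬ ℓ ∣ Nat.card (Img ρ)

/-- `r` has finite image and the right behaviour at all primes not dividing `N T`. -/
def GoodAway (D : W1Data N) (T : ℕ) (r : GQ →* GL (Fin 2) ℂ) : Prop :=
  GaloisFactorsThroughFiniteLevel r ∧
    ∀ p : ℕ, p.Prime → ¬ p ∣ N * T →
      ∀ A : ValuationSubring (AlgebraicClosure ℚ), A.LiesOverPrime p →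
        (∀ σ ∈ A.inertiaSubgroupIn ℚ, r σ = 1) ∧
        ∀ σ : GQ, A.IsFrobeniusAt σ p →
          ((r σ : GL (Fin 2) ℂ) : Matrix (Fin 2) (Fin 2) ℂ).trace = qCoeff D.f p ∧
          ((r σ : GL (Fin 2) ℂ) : Matrix (Fin 2) (Fin 2) ℂ).det = D.ε (p : ZMod N)

end Fermat.Agent.S48.Final
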