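import Fermat.Agent.S48.Final.LiftRep
import Fermat.Agent.Lib.FrobDensity.Main

/-!
# S48 / FINAL, leaf F6 : two auxiliary primes give the right behaviour at all `p ∤ N`
-/

set_option autoImplicit false

open ModularFormClass Polynomial

noncomputable section

namespace Fermat.Agent.S48.Final

variable {N : ℕ} [NeZero N]

/-- Cayley-Hamilton for `2 × 2` matrices. -/
theorem mul_self_eq_fin_two (A : Matrix (Fin 2) (Fin 2) ℂ) :
    A * A = A.trace • A - A.det • (1 : Matrix (Fin 2) (Fin 2) ℂ) := by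
  ext i j
  fin_cases i <;> fin_cases j <;>
    simp [Matrix.mul_apply, Fin.sum_univ_two, Matrix.trace_fin_two, Matrix.det_fin_two] <;> ring

theorem eq_one_of_add_eq_two {α β : ℂ} (hα : ‖α‖ = 1) (hβ : ‖β‖ = 1) (h : α + β = 2) :
    α = 1 ∧ β = 1 := by
  have h1 : α.re + β.re = 2 := by
    have := congrArg Complex.re h
    simpa using this
  have h2 : α.re ≤ 1 := hα ▸ Complex.re_le_norm α
  have h3 : β.re ≤ 1 := hβ ▸ Complex.re_le_norm β
  have h4 : α.re = 1 := by linarith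
  have h5 : β.re = 1 := by linarith
  have key : ∀ z : ℂ, ‖z‖ = 1 → z.re = 1 → z = 1 := by
    intro z hz hre
    have h6 : z.re ^ 2 + z.im ^ 2 = 1 := by
      have := Complex.sq_norm z
      rw [hz, Complex.normSq_apply] at this
      nlinarith
    have h7 : z.im = 0 := by
      rw [hre] at h6
      nlinarith
    exact Complex.ext (by simpa using hre) (by simpa using h7)
  exact ⟨key α hα h4, key β hβ h5⟩

/-- A complex `2 × 2` matrix of finite order and trace `2` is the identity.  (`exists_roots_of_pow_eq_one`: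
`α + β = 2`, `‖α‖ = ‖β‖ = 1` force `α = β = 1`; so `charpoly = (X - 1)²`, `(A - 1)² = 0` by
Cayley-Hamilton, `A ^ n = 1 + n (A - 1)`, hence `A = 1`.) -/
theorem eq_one_of_trace_eq_two {n : ℕ} (hn : 0 < n) (A : Matrix (Fin 2) (Fin 2) ℂ) (hA : A ^ n = 1)
    (ht : A.trace = 2) : A = 1 := by
  obtain ⟨α, β, hα, hβ, htr, hdet⟩ := exists_roots_of_pow_eq_one A hA
  have hα1 : ‖α‖ = 1 := Complex.norm_eq_one_of_pow_eq_one hα hn.ne'
  have hβ1 : ‖β‖ = 1 := Complex.norm_eq_one_of_pow_eq_one hβ hn.ne'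
  obtain ⟨rfl, rfl⟩ := eq_one_of_add_eq_two hα1 hβ1 (htr ▸ ht)
  have hd : A.det = 1 := by rw [hdet, one_mul]
  have hCH := mul_self_eq_fin_two A
  rw [ht, hd, one_smul] at hCH
  -- `A ^ m = 1 + m (A - 1)`
  have hpow : ∀ m : ℕ, A ^ m = 1 + (m : ℂ) • (A - 1) := by
    intro m
    induction m with
    | zero => simp
    | succ m ih =>
      rw [pow_succ, ih, add_mul, one_mul, smul_mul_assoc, sub_mul, one_mul, hCH]
      push_cast
      module
  have h1 := hpow n
  rw [hA] at h1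
  have h2 : (n : ℂ) • (A - 1) = 0 := by
    have := h1.symm
    rwa [add_eq_left] at this
  have h3 : A - 1 = 0 := by
    rcases smul_eq_zero.1 h2 with h | h
    · exact absurd (Nat.cast_eq_zero.1 h) hn.ne'
    · exact h
  exact sub_eq_zero.1 h3

/-- Two matrices of finite order with the same trace and determinant: all their powers have the
same trace and determinant.  (`trace (A ^ (b+2)) = trace A * trace (A ^ (b+1)) - det A * trace (A ^ b)` by
Cayley-Hamilton `A² = (trace A) A - (det A) 1`; induction.  Finite order is not needed.) -/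
theorem trace_pow_eq {A A' : Matrix (Fin 2) (Fin 2) ℂ} (ht : A.trace = A'.trace)
    (hd : A.det = A'.det) (b : ℕ) : (A ^ b).trace = (A' ^ b).trace ∧ (A ^ b).det = (A' ^ b).det := by
  refine ⟨?_, by rw [Matrix.det_pow, Matrix.det_pow, hd]⟩
  have hrec : ∀ (B : Matrix (Fin 2) (Fin 2) ℂ) (m : ℕ),
      (B ^ (m + 2)).trace = B.trace * (B ^ (m + 1)).trace - B.det * (B ^ m).trace := by
    intro B m
    have h1 : B ^ (m + 2) = B.trace • B ^ (m + 1) - B.det • B ^ m := by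
      rw [pow_add, pow_two, mul_self_eq_fin_two, mul_sub, mul_smul_comm, mul_smul_comm, mul_one,
        pow_succ]
    rw [h1, Matrix.trace_sub, Matrix.trace_smul, Matrix.trace_smul, smul_eq_mul, smul_eq_mul]
  have hboth : ∀ m : ℕ, (A ^ m).trace = (A' ^ m).trace ∧ (A ^ (m + 1)).trace = (A' ^ (m + 1)).trace := by
    intro m
    induction m with
    | zero => exact ⟨by simp, by simpa using ht⟩
    | succ m ih =>
      refine ⟨ih.2, ?_⟩
      rw [hrec A m, hrec A' m, ih.1, ih.2, ht, hd]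
  exact (hboth b).1

/-- Traces and determinants of `r` and `r'` agree on all of `G_ℚ`.  Proof: `L ⊔ L'` a common finite
level; `Lib.FrobDensity.exists_frobenius_pow (L ⊔ L') g ((N * ℓ * ℓ').primeFactors)` gives a prime
`p ∤ N ℓ ℓ'`, a Frobenius `σ` and `b` with `σ ^ b = g` on `L ⊔ L'`, so `r g = (r σ) ^ b`, `r' g = (r' σ) ^ b`
(`GAL/ModP/Glue.eq_of_level`); `trace_pow_eq`. -/
theorem trace_det_eq {D : W1Data N} {ℓ ℓ' : ℕ} (hℓ : ℓ.Prime) (hℓ' : ℓ'.Prime)
    {r r' : GQ →* GL (Fin 2) ℂ} (h : GoodAway D ℓ r) (h' : GoodAway D ℓ' r') (g : GQ) :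
    ((r g : GL (Fin 2) ℂ) : Matrix (Fin 2) (Fin 2) ℂ).trace =
        ((r' g : GL (Fin 2) ℂ) : Matrix (Fin 2) (Fin 2) ℂ).trace ∧
      ((r g : GL (Fin 2) ℂ) : Matrix (Fin 2) (Fin 2) ℂ).det =
        ((r' g : GL (Fin 2) ℂ) : Matrix (Fin 2) (Fin 2) ℂ).det := by
  obtain ⟨L, hL, hLr⟩ := h.1
  obtain ⟨L', hL', hLr'⟩ := h'.1
  have hfin : FiniteDimensional ℚ (L ⊔ L' : IntermediateField ℚ (AlgebraicClosure ℚ)) :=
    IntermediateField.finiteDimensional_sup L L'
  obtain ⟨p, A, σ, a, b, hp, hpT, hA, hσ, hb, -⟩ :=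
    Lib.FrobDensity.exists_frobenius_pow (L ⊔ L') g ((N * ℓ * ℓ').primeFactors)
  have hne : N * ℓ * ℓ' ≠ 0 :=
    mul_ne_zero (mul_ne_zero (NeZero.ne N) hℓ.ne_zero) hℓ'.ne_zero
  have hpN : ¬ p ∣ N * ℓ * ℓ' := fun hd => hpT (Nat.mem_primeFactors.mpr ⟨hp, hd, hne⟩)
  have hpN1 : ¬ p ∣ N * ℓ := fun hd => hpN (Dvd.dvd.mul_right hd ℓ')
  have hpN2 : ¬ p ∣ N * ℓ' := fun hd => hpN (by
    have : N * ℓ * ℓ' = N * ℓ' * ℓ := by ring
    rw [this]; exact Dvd.dvd.mul_right hd ℓ)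
  have key : ∀ (ρ : GQ →* GL (Fin 2) ℂ) (E : IntermediateField ℚ (AlgebraicClosure ℚ)),
      E ≤ L ⊔ L' → (∀ τ : GQ, (∀ x ∈ E, τ x = x) → ρ τ = 1) → ρ g = ρ σ ^ b := by
    intro ρ E hE hρ
    have h1 : ρ (g⁻¹ * σ ^ b) = 1 := by
      apply hρ
      intro x hx
      rw [AlgEquiv.mul_apply, hb x (hE hx)]
      exact AlgEquiv.symm_apply_apply g x
    have h2 : σ ^ b = g * (g⁻¹ * σ ^ b) := by group
    rw [← map_pow, h2, map_mul, h1, mul_one]
  have e1 := key r L le_sup_left hLr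
  have e2 := key r' L' le_sup_right hLr'
  have hF := (h.2 p hp hpN1 A hA).2 σ hσ
  have hF' := (h'.2 p hp hpN2 A hA).2 σ hσ
  have := trace_pow_eq (hF.1.trans hF'.1.symm) (hF.2.trans hF'.2.symm) b
  rw [e1, e2, Units.val_pow_eq_pow_val, Units.val_pow_eq_pow_val]
  exact this

/-- **F6**.  For `p ∤ N`: if `p ≠ ℓ` use `h`; if `p = ℓ` then `p ∤ N ℓ'`: for `σ` in the inertia group
`r' σ = 1`, so `trace (r σ) = 2` and `r σ = 1` (`eq_one_of_trace_eq_two`, `r σ` has finite order by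
`finite_range_of_level`); for a Frobenius `σ` transport trace and determinant by `trace_det_eq`. -/
theorem goodAway_one {D : W1Data N} {ℓ ℓ' : ℕ} (hℓ : ℓ.Prime) (hℓ' : ℓ'.Prime) (hne : ℓ ≠ ℓ')
    {r r' : GQ →* GL (Fin 2) ℂ} (h : GoodAway D ℓ r) (h' : GoodAway D ℓ' r') : GoodAway D 1 r := by
  refine ⟨h.1, fun p hp hpN A hA => ?_⟩
  rw [mul_one] at hpN
  by_cases hpl : p = ℓ
  · have hpN' : ¬ p ∣ N * ℓ' := by
      intro hd
      rcases (Nat.Prime.dvd_mul hp).mp hd with hd | hd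
      · exact hpN hd
      · exact hne (hpl.symm.trans ((Nat.prime_dvd_prime_iff_eq hp hℓ').mp hd))
    obtain ⟨hI', hF'⟩ := h'.2 p hp hpN' A hA
    refine ⟨fun σ hσ => ?_, fun σ hσ => ?_⟩
    · have ht := (trace_det_eq hℓ hℓ' h h' σ).1
      rw [hI' σ hσ] at ht
      have ht2 : ((r σ : GL (Fin 2) ℂ) : Matrix (Fin 2) (Fin 2) ℂ).trace = 2 := by
        rw [ht]; simp
      have hfin : Finite r.range := finite_range_of_level r h.1
      obtain ⟨n, hn, hpow⟩ := isOfFinOrder_iff_pow_eq_one.mp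
        (isOfFinOrder_of_finite (⟨r σ, σ, rfl⟩ : r.range))
      have hpow' : (r σ) ^ n = 1 := by
        have := congrArg Subtype.val hpow
        simpa using this
      apply Units.ext
      refine eq_one_of_trace_eq_two hn _ ?_ ht2
      rw [← Units.val_pow_eq_pow_val, hpow']
      rfl
    · have ht := trace_det_eq hℓ hℓ' h h' σ
      exact ⟨ht.1.trans (hF' σ hσ).1, ht.2.trans (hF' σ hσ).2⟩
  · have hpN' : ¬ p ∣ N * ℓ := by
      intro hd
      rcases (Nat.Prime.dvd_mul hp).mp hd with hd | hd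
      · exact hpN hd
      · exact hpl ((Nat.prime_dvd_prime_iff_eq hp hℓ).mp hd)
    exact h.2 p hp hpN' A hA

end Fermat.Agent.S48.Final
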