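import Fermat.Agent.S48.Final.Basic
import Fermat.Agent.S48.Rankin.Main

/-!
# S48 / FINAL, leaf F7 : irreducibility
-/

set_option autoImplicit false

open ModularFormClass Polynomial

noncomputable section

namespace Fermat.Agent.S48.Final

variable {N : ℕ} [NeZero N]

/-- Cayley-Hamilton for `2 × 2` matrices (copy for this file). -/
theorem cayley_fin_two_irred (A : Matrix (Fin 2) (Fin 2) ℂ) :
    A * A = A.trace • A - A.det • (1 : Matrix (Fin 2) (Fin 2) ℂ) := by
  ext i j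
  fin_cases i <;> fin_cases j <;>
    simp [Matrix.mul_apply, Fin.sum_univ_two, Matrix.trace_fin_two, Matrix.det_fin_two] <;> ring

/-- the sum of the values of a multiplicative function on a finite group has nonnegative real part. -/
theorem re_sum_hom_nonneg {G : Type} [Group G] [Fintype G] (ψ : G →* ℂ) :
    0 ≤ (∑ g : G, ψ g).re := by
  by_cases h : ∀ g, ψ g = 1
  · simp [h]
  · simp only [not_forall] at h
    obtain ⟨h₀, hh⟩ := h
    have h1 : ψ h₀ * ∑ g : G, ψ g = ∑ g : G, ψ g := by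
      rw [Finset.mul_sum]
      calc ∑ g : G, ψ h₀ * ψ g = ∑ g : G, ψ (h₀ * g) := by simp
        _ = ∑ g : G, ψ g := Fintype.sum_equiv (Equiv.mulLeft h₀) _ _ (fun g => rfl)
    have h2 : (ψ h₀ - 1) * ∑ g : G, ψ g = 0 := by rw [sub_mul, h1, one_mul, sub_self]
    rcases mul_eq_zero.1 h2 with h3 | h3
    · exact absurd (sub_eq_zero.1 h3) hh
    · rw [h3]; simp

/-- **F7a**.  A two dimensional complex representation of a finite group with an invariant line has
`∑ ‖trace‖² ≥ 2 |G|`.  Proof: complete `v` to a basis: `ρ g` is conjugate to an upper triangular matrix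
with diagonal `χ₁ g, χ₂ g`; `χ₁` (the eigenvalue on `v`) and `χ₂ = det / χ₁` are homomorphisms
`G → ℂˣ`, of modulus one; `trace = χ₁ + χ₂` (trace `=` eigenvalue on the line `+` eigenvalue on the quotient;
concretely `charpoly (ρ g)` has the root `χ₁ g`, so `trace = χ₁ + det/χ₁`);
`‖χ₁ + χ₂‖² = 2 + 2 Re (ψ g)`, `ψ = χ₁ χ₂⁻¹`, and `∑_g ψ g ∈ {0, |G|}` (`sum_hom_units`-style: if `ψ h ≠ 1`
then `ψ h * ∑ = ∑`), so its real part is `≥ 0`. -/
theorem two_mul_card_le {G : Type} [Group G] [Fintype G] (ρ : G →* GL (Fin 2) ℂ)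
    (v : Fin 2 → ℂ) (hv : v ≠ 0)
    (hinv : ∀ g : G, ∃ c : ℂ, ((ρ g : GL (Fin 2) ℂ) : Matrix (Fin 2) (Fin 2) ℂ).mulVec v = c • v) :
    2 * (Fintype.card G : ℝ) ≤
      ∑ g : G, ‖((ρ g : GL (Fin 2) ℂ) : Matrix (Fin 2) (Fin 2) ℂ).trace‖ ^ 2 := by
  classical
  choose c hc using hinv
  have huniq : ∀ a b : ℂ, a • v = b • v → a = b := fun a b h => by
    have h1 : (a - b) • v = 0 := by rw [sub_smul, h, sub_self]
    rcases smul_eq_zero.1 h1 with h2 | h2
    · exact sub_eq_zero.1 h2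
    · exact absurd h2 hv
  have hc1 : c 1 = 1 := huniq _ _ (by rw [← hc 1, map_one]; simp)
  have hcmul : ∀ g h, c (g * h) = c g * c h := by
    intro g h
    apply huniq
    rw [← hc (g * h), map_mul, Units.val_mul, ← Matrix.mulVec_mulVec, hc h, Matrix.mulVec_smul,
      hc g, smul_smul, mul_comm]
  let χ : G →* ℂ := ⟨⟨c, hc1⟩, hcmul⟩
  let δ : G →* ℂ :=
    { toFun := fun g => ((ρ g : GL (Fin 2) ℂ) : Matrix (Fin 2) (Fin 2) ℂ).det
      map_one' := by simp
      map_mul' := by intro g h; simp [Matrix.det_mul] }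
  have hnorm : ∀ (φ : G →* ℂ) (g : G), ‖φ g‖ = 1 := fun φ g =>
    Complex.norm_eq_one_of_pow_eq_one (n := Fintype.card G)
      (by rw [← map_pow, pow_card_eq_one, map_one]) Fintype.card_ne_zero
  have hne : ∀ (φ : G →* ℂ) (g : G), φ g ≠ 0 := fun φ g h => by
    have := hnorm φ g
    rw [h, norm_zero] at this
    exact zero_ne_one this
  let ψ : G →* ℂ :=
    { toFun := fun g => χ g * χ g * (δ g)⁻¹
      map_one' := by simp
      map_mul' := by
        intro g h
        rw [map_mul, map_mul, mul_inv]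
        ring }
  have htr : ∀ g, ((ρ g : GL (Fin 2) ℂ) : Matrix (Fin 2) (Fin 2) ℂ).trace = χ g + δ g / χ g := by
    intro g
    set A := ((ρ g : GL (Fin 2) ℂ) : Matrix (Fin 2) (Fin 2) ℂ) with hA
    have h1 : (A * A).mulVec v = (c g * c g) • v := by
      rw [← Matrix.mulVec_mulVec, hc g, Matrix.mulVec_smul, hc g, smul_smul]
    have h2 : (A * A).mulVec v = (A.trace * c g - A.det) • v := by
      rw [cayley_fin_two_irred, Matrix.sub_mulVec, Matrix.smul_mulVec, Matrix.smul_mulVec,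
        Matrix.one_mulVec, hc g, smul_smul, sub_smul]
    have h3 : c g * c g = A.trace * c g - A.det := huniq _ _ (h1 ▸ h2)
    have h4 : c g ≠ 0 := hne χ g
    show A.trace = c g + A.det / c g
    field_simp
    linear_combination -h3
  have hsq : ∀ g, ‖((ρ g : GL (Fin 2) ℂ) : Matrix (Fin 2) (Fin 2) ℂ).trace‖ ^ 2 =
      2 + 2 * (ψ g).re := by
    intro g
    rw [htr g, Complex.sq_norm, Complex.normSq_add]
    have h1 : Complex.normSq (χ g) = 1 := by rw [← Complex.sq_norm, hnorm χ g, one_pow]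
    have h2 : ‖δ g / χ g‖ = 1 := by rw [norm_div, hnorm χ g, hnorm δ g, div_one]
    have h3 : Complex.normSq (δ g / χ g) = 1 := by rw [← Complex.sq_norm, h2, one_pow]
    have h4 : (starRingEnd ℂ) (δ g / χ g) = χ g * (δ g)⁻¹ := by
      have h5 : (δ g / χ g) * (starRingEnd ℂ) (δ g / χ g) = 1 := by
        rw [Complex.mul_conj, h3, Complex.ofReal_one]
      have h6 : δ g / χ g ≠ 0 := div_ne_zero (hne δ g) (hne χ g)
      have h7 : (starRingEnd ℂ) (δ g / χ g) = (δ g / χ g)⁻¹ := eq_inv_of_mul_eq_one_right h5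
      rw [h7, inv_div, div_eq_mul_inv]
    rw [h1, h3, h4]
    have h8 : χ g * (χ g * (δ g)⁻¹) = ψ g := by
      show χ g * (χ g * (δ g)⁻¹) = χ g * χ g * (δ g)⁻¹
      ring
    rw [h8]
    ring
  calc 2 * (Fintype.card G : ℝ) ≤ 2 * (Fintype.card G : ℝ) + 2 * (∑ g : G, ψ g).re := by
        have := re_sum_hom_nonneg ψ
        linarith
    _ = ∑ g : G, (2 + 2 * (ψ g).re) := by
        rw [Finset.sum_add_distrib, ← Finset.mul_sum, Complex.re_sum]
        simp [mul_comm]
    _ = _ := Finset.sum_congr rfl fun g _ => (hsq g).symm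

/-- (aux. for F7b) `‖trace g⁻¹‖ = ‖trace g‖` for `g ∈ GL₂(ℂ)` of finite order. -/
theorem Irred_norm_trace_inv (g : GL (Fin 2) ℂ) {n : ℕ} (hn : n ≠ 0) (hg : g ^ n = 1) :
    ‖((g⁻¹ : GL (Fin 2) ℂ) : Matrix (Fin 2) (Fin 2) ℂ).trace‖ =
      ‖(g : Matrix (Fin 2) (Fin 2) ℂ).trace‖ := by
  have hdet : ‖(g : Matrix (Fin 2) (Fin 2) ℂ).det‖ = 1 := by
    apply Complex.norm_eq_one_of_pow_eq_one _ hn
    rw [← Matrix.det_pow, ← Units.val_pow_eq_pow_val, hg, Units.val_one, Matrix.det_one]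
  rw [Matrix.coe_units_inv, Matrix.inv_def, Matrix.trace_smul, Matrix.adjugate_fin_two,
    Matrix.trace_fin_two, Matrix.trace_fin_two, norm_smul, Ring.inverse_eq_inv', norm_inv, hdet,
    inv_one, one_mul]
  simp [add_comm]

/-- (aux. for F7b) the real analysis. -/
theorem Irred_exists_s (s₁ C : ℝ) (hs₁ : 1 < s₁) :
    ∃ s : ℝ, 1 < s ∧ s < s₁ ∧ s ≤ 2 ∧ C < Real.log (1 / (s - 1)) := by
  set η : ℝ := min (min (s₁ - 1) 1) (Real.exp (-C)) with hη
  have hη0 : 0 < η := lt_min (lt_min (by linarith) one_pos) (Real.exp_pos _)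
  have h1 : η ≤ s₁ - 1 := (min_le_left _ _).trans (min_le_left _ _)
  have h2 : η ≤ 1 := (min_le_left _ _).trans (min_le_right _ _)
  have h3 : η ≤ Real.exp (-C) := min_le_right _ _
  refine ⟨1 + η / 2, by linarith, by linarith, by linarith, ?_⟩
  have h4 : 1 + η / 2 - 1 = η / 2 := by ring
  rw [h4, one_div, Real.log_inv]
  have h5 : Real.log (η / 2) < Real.log (Real.exp (-C)) :=
    Real.log_lt_log (by positivity) (by linarith)
  rw [Real.log_exp] at h5
  linarith

/-- **F7b**.  Rankin + Chebotarev: `∑_{g ∈ G} ‖trace g‖² < 2 |G|` for `G = r.range`.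
Proof.  `G := r.range` (finite by `finite_range_of_level`), `π := r.rangeRestrict` surjective of finite level.
For each value `w` of `g ↦ ‖trace g‖²` on `G` let `C_w := {g | ‖trace g‖² = w}`: stable under conjugation and
under inversion (`trace g⁻¹ = conj (trace g)` for `g` of finite order: eigenvalues are roots of unity;
or: `trace g⁻¹ = trace g / det g`, `‖det g‖ = 1`), `P_w := {p | p.Prime ∧ ¬ p ∣ N ∧ ‖a_p‖² = w}`, `T := N.primeFactors`.
Suppose `∑_g ‖trace g‖² = ∑_w w |C_w| ≥ 2 |G|`.  Choose `δ_w < |C_w| / |G|` with `∑_w w δ_w > 3/2`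
(e.g. `δ_w = |C_w|/|G| - τ`, `τ` small; only `w > 0` matter).  `hC` gives for `s` close to `1` finite sets
`S_w ⊆ P_w` (pairwise disjoint) with `δ_w log (1/(s-1)) ≤ ∑_{S_w} p^{-s}`.  With `S = ⋃ S_w`:
`(3/2) log (1/(s-1)) ≤ ∑_w w ∑_{S_w} p^{-s} = ∑_{p ∈ S} ‖a_p‖² p^{-s} ≤ log (1/(s-1)) + C`
(`Rankin.rankin N D.ε D.f D.one D.hecke`), false for `s → 1⁺`. -/
theorem sum_lt_two_mul_card (hC : StmtCheb) (D : W1Data N) {r : GQ →* GL (Fin 2) ℂ}
    (h : GoodAway D 1 r) [Fintype r.range] :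
    ∑ g : r.range, ‖(((g : GL (Fin 2) ℂ)) : Matrix (Fin 2) (Fin 2) ℂ).trace‖ ^ 2 <
      2 * (Fintype.card r.range : ℝ) := by
  classical
  by_contra hcon
  push Not at hcon
  set t : r.range → ℝ := fun g => ‖(((g : GL (Fin 2) ℂ)) : Matrix (Fin 2) (Fin 2) ℂ).trace‖ ^ 2
    with ht
  set W : Finset ℝ := Finset.univ.image t with hW
  have hWne : W.Nonempty := ⟨t 1, Finset.mem_image_of_mem t (Finset.mem_univ _)⟩
  have hW0 : ∀ w ∈ W, 0 ≤ w := by
    intro w hw
    obtain ⟨g, -, rfl⟩ := Finset.mem_image.1 hw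
    exact sq_nonneg _
  set n : ℝ := (Fintype.card r.range : ℝ) with hn
  have hn0 : 0 < n := by
    rw [hn]
    exact_mod_cast Fintype.card_pos
  set cw : ℝ → ℝ := fun w => ((Finset.univ.filter fun g => t g = w).card : ℝ) with hcw
  have hsum : ∑ g, t g = ∑ w ∈ W, w * cw w := by
    rw [← Finset.sum_fiberwise_of_maps_to' (s := Finset.univ) (t := W) (g := t)
      (fun g _ => Finset.mem_image_of_mem t (Finset.mem_univ g)) (fun w => w)]
    apply Finset.sum_congr rfl
    intro w _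
    rw [Finset.sum_const, nsmul_eq_mul, mul_comm]
  set Sg : ℝ := ∑ w ∈ W, w with hSg
  have hSg0 : 0 ≤ Sg := Finset.sum_nonneg hW0
  set τ : ℝ := 1 / (4 * (1 + Sg)) with hτ
  have hτ0 : 0 < τ := by positivity
  have hτS : τ * Sg ≤ 1 / 4 := by
    rw [hτ, div_mul_eq_mul_div, one_mul, div_le_div_iff₀ (by positivity) (by norm_num)]
    linarith
  set δ : ℝ → ℝ := fun w => cw w / n - τ with hδ
  have hδsum : 7 / 4 ≤ ∑ w ∈ W, w * δ w := by
    have h1 : ∑ w ∈ W, w * δ w = (∑ w ∈ W, w * cw w) / n - τ * Sg := by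
      rw [hSg, Finset.mul_sum, Finset.sum_div, ← Finset.sum_sub_distrib]
      apply Finset.sum_congr rfl
      intro w _
      rw [hδ]
      ring
    rw [h1, ← hsum]
    have h2 : 2 ≤ (∑ g, t g) / n := by
      rw [le_div_iff₀ hn0]
      exact hcon
    linarith
  -- Chebotarev
  have hsurj : Function.Surjective r.rangeRestrict := r.rangeRestrict_surjective
  have hlev : GaloisFactorsThroughFiniteLevel r.rangeRestrict := by
    obtain ⟨L, hL, hL'⟩ := h.1
    exact ⟨L, hL, fun σ hσ => Subtype.ext (hL' σ hσ)⟩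
  have hcheb : ∀ w : ℝ, ∃ s₀ : ℝ, 1 < s₀ ∧ ∀ s : ℝ, 1 < s → s < s₀ →
      ∃ S : Finset ℕ, (∀ p ∈ S, p.Prime ∧ p ∈ {p : ℕ | ¬ p ∣ N ∧ ‖qCoeff D.f p‖ ^ 2 = w}) ∧
        δ w * Real.log (1 / (s - 1)) ≤ ∑ p ∈ S, (p : ℝ) ^ (-s) := by
    intro w
    refine hC r.range r.rangeRestrict hsurj hlev {g | t g = w} ?_ ?_ N.primeFactors _ ?_ (δ w) ?_
    · intro x y hx
      rw [Set.mem_ofPred_eq] at hx ⊢
      rw [← hx, ht]
      simp only [Subgroup.coe_mul, Subgroup.coe_inv, Units.val_mul]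
      rw [Matrix.trace_units_conj]
    · intro x hx
      rw [Set.mem_ofPred_eq] at hx ⊢
      rw [← hx, ht]
      simp only [Subgroup.coe_inv]
      rw [Irred_norm_trace_inv (x : GL (Fin 2) ℂ) (n := Fintype.card r.range) Fintype.card_ne_zero]
      have := pow_card_eq_one (x := x)
      exact_mod_cast congrArg Subtype.val this
    · intro p hp hpT A hA σ hσ hσC
      have hpN : ¬ p ∣ N := fun hd =>
        hpT (Nat.mem_primeFactors.2 ⟨hp, hd, NeZero.ne N⟩)
      refine ⟨hpN, ?_⟩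
      have h1 := ((h.2 p hp (by rwa [mul_one]) A hA).2 σ hσ).1
      rw [← h1]
      exact hσC
    · have h0 : (Nat.card ({g | t g = w} : Set r.range) : ℝ) = cw w := by
        rw [hcw, Nat.card_eq_fintype_card, Fintype.card_subtype]
        rfl
      have h1 : δ w * n = cw w - τ * n := by
        rw [hδ]
        field_simp
      rw [h0, Nat.card_eq_fintype_card, ← hn, h1]
      have : 0 < τ * n := by positivity
      linarith
  choose s₀ hs₀ hS₀ using hcheb
  obtain ⟨C, hRankin⟩ := Rankin.rankin N D.ε D.f D.one D.hecke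
  have hs₁ : 1 < W.inf' hWne s₀ := by
    rw [Finset.lt_inf'_iff]
    exact fun w _ => hs₀ w
  obtain ⟨s, hs1, hs2, hs3, hs4⟩ := Irred_exists_s (W.inf' hWne s₀) (4 / 3 * C) hs₁
  have hSw : ∀ w ∈ W, ∃ S : Finset ℕ,
      (∀ p ∈ S, p.Prime ∧ p ∈ {p : ℕ | ¬ p ∣ N ∧ ‖qCoeff D.f p‖ ^ 2 = w}) ∧
        δ w * Real.log (1 / (s - 1)) ≤ ∑ p ∈ S, (p : ℝ) ^ (-s) := fun w hw =>
    hS₀ w s hs1 (lt_of_lt_of_le hs2 (Finset.inf'_le _ hw))
  choose! S hS hSle using hSw
  set L : ℝ := Real.log (1 / (s - 1)) with hL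
  have hdisj : (W : Set ℝ).PairwiseDisjoint S := by
    intro w hw w' hw' hne
    rw [Function.onFun, Finset.disjoint_left]
    intro p hp hp'
    exact hne (((hS w hw p hp).2.2).symm.trans ((hS w' hw' p hp').2.2))
  have h1 : ∑ w ∈ W, w * (δ w * L) ≤ ∑ w ∈ W, ∑ p ∈ S w, ‖qCoeff D.f p‖ ^ 2 * (p : ℝ) ^ (-s) := by
    apply Finset.sum_le_sum
    intro w hw
    calc w * (δ w * L) ≤ w * ∑ p ∈ S w, (p : ℝ) ^ (-s) :=
          mul_le_mul_of_nonneg_left (hSle w hw) (hW0 w hw)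
      _ = ∑ p ∈ S w, ‖qCoeff D.f p‖ ^ 2 * (p : ℝ) ^ (-s) := by
          rw [Finset.mul_sum]
          apply Finset.sum_congr rfl
          intro p hp
          rw [(hS w hw p hp).2.2]
  rw [← Finset.sum_biUnion hdisj] at h1
  have h2 := hRankin s hs1 hs3 (W.biUnion S) (by
    intro p hp
    obtain ⟨w, hw, hpw⟩ := Finset.mem_biUnion.1 hp
    exact ⟨(hS w hw p hpw).1, (hS w hw p hpw).2.1⟩)
  have h3 : ∑ w ∈ W, w * (δ w * L) = (∑ w ∈ W, w * δ w) * L := by
    rw [Finset.sum_mul]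
    apply Finset.sum_congr rfl
    intro w _
    ring
  rw [h3] at h1
  have hL0 : 0 ≤ L ∨ L < 0 := le_or_gt 0 L
  have h4 : (∑ w ∈ W, w * δ w) * L ≤ L + C := h1.trans h2
  rcases hL0 with hL0 | hL0
  · have h5 : 7 / 4 * L ≤ (∑ w ∈ W, w * δ w) * L := mul_le_mul_of_nonneg_right hδsum hL0
    linarith
  · -- `L < 0` is impossible as `s ≤ 2`
    have h6 : 0 ≤ L := by
      rw [hL]
      apply Real.log_nonneg
      rw [le_div_iff₀ (by linarith)]
      linarith
    linarith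

/-- **F7c**.  If `matrixRepresentation r` is not irreducible there is an invariant line.
`Representation.IsIrreducible = IsSimpleOrder (Subrepresentation _)`; nontriviality: `⊥ ≠ ⊤` since the
space is `Fin 2 → ℂ`; a subrepresentation `W ≠ ⊥, ⊤` has `finrank = 1`, spanned by `v`. -/
theorem isIrreducible_of_no_line (r : GQ →* GL (Fin 2) ℂ)
    (hno : ¬ ∃ v : Fin 2 → ℂ, v ≠ 0 ∧ ∀ g : GQ, ∃ c : ℂ,
      ((r g : GL (Fin 2) ℂ) : Matrix (Fin 2) (Fin 2) ℂ).mulVec v = c • v) :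
    (Deformation.matrixRepresentation r).IsIrreducible := by
  have hnt : Nontrivial (Subrepresentation (Deformation.matrixRepresentation r)) := by
    refine ⟨⊥, ⊤, fun h => ?_⟩
    have h1 : (⊥ : Submodule ℂ (Fin 2 → ℂ)) = ⊤ := congrArg Subrepresentation.toSubmodule h
    exact bot_ne_top h1
  refine { toNontrivial := hnt, eq_bot_or_eq_top := ?_ }
  intro W
  by_contra hW
  rw [not_or] at hW
  obtain ⟨hb, ht⟩ := hW
  have hb' : W.toSubmodule ≠ ⊥ := fun h => hb (Subrepresentation.toSubmodule_injective h)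
  have ht' : W.toSubmodule ≠ ⊤ := fun h => ht (Subrepresentation.toSubmodule_injective h)
  have h1 : Module.finrank ℂ W.toSubmodule = 1 := by
    have hlt : Module.finrank ℂ W.toSubmodule < Module.finrank ℂ (Fin 2 → ℂ) :=
      Submodule.finrank_lt ht'
    have hpos : 0 < Module.finrank ℂ W.toSubmodule := by
      rw [Module.finrank_pos_iff]
      exact Submodule.nontrivial_iff_ne_bot.2 hb'
    rw [Module.finrank_fin_fun] at hlt
    omega
  obtain ⟨v, hv0, hv⟩ := finrank_eq_one_iff'.1 h1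
  apply hno
  refine ⟨v, fun h => hv0 (Subtype.ext h), fun g => ?_⟩
  have hmem := W.apply_mem_toSubmodule g v.2
  obtain ⟨c, hc⟩ := hv ⟨_, hmem⟩
  refine ⟨c, ?_⟩
  have h2 : c • (v : Fin 2 → ℂ) = (Deformation.matrixRepresentation r) g (v : Fin 2 → ℂ) :=
    congrArg Subtype.val hc
  rw [Deformation.matrixRepresentation_apply] at h2
  exact h2.symm

/-- **F7**. -/
theorem isIrreducible (hC : StmtCheb) (D : W1Data N) {r : GQ →* GL (Fin 2) ℂ}
    (h : GoodAway D 1 r) : (Deformation.matrixRepresentation r).IsIrreducible := by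
  apply isIrreducible_of_no_line
  rintro ⟨v, hv, hinv⟩
  haveI : Finite r.range := finite_range_of_level r h.1
  letI : Fintype r.range := Fintype.ofFinite _
  have h1 := sum_lt_two_mul_card hC D h
  have h2 := two_mul_card_le (G := r.range) r.range.subtype v hv (by
    rintro ⟨_, g, rfl⟩
    exact hinv g)
  exact absurd (lt_of_le_of_lt h2 h1) (lt_irrefl _)

end Fermat.Agent.S48.Final
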