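import Fermat.Agent.S48.Final.Roots

/-!
# S48 / FINAL, leaf F5 : a complex representation with the right Frobenius data away from `N ℓ`
-/

set_option autoImplicit false

open ModularFormClass Polynomial

noncomputable section

namespace Fermat.Agent.S48.Final

variable {N : ℕ} [NeZero N]

/-- For a finite set `Σ` of algebraic integers, almost all residue maps are injective on `Σ`
(`exists_bad_primes` applied to the differences `x - y`, `x ≠ y ∈ Σ`; union of the bad sets). -/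
theorem exists_injOn (S : Finset Zbar) :
    ∃ B : Finset ℕ, ∀ ℓ : ℕ, ℓ.Prime → ℓ ∉ B → ∀ Rm : ResMap ℓ, Set.InjOn Rm.φ (S : Set Zbar) := by
  classical
  have hex : ∀ z : Zbar × Zbar, ∃ B : Finset ℕ, z.1 ≠ z.2 →
      ∀ ℓ : ℕ, ℓ.Prime → ℓ ∉ B → ∀ Rm : ResMap ℓ, Rm.φ (z.1 - z.2) ≠ 0 := by
    intro z
    by_cases hz : z.1 = z.2
    · exact ⟨∅, fun h => absurd hz h⟩
    · obtain ⟨B, hB⟩ := exists_bad_primes (z.1 - z.2) (sub_ne_zero.2 hz)
      exact ⟨B, fun _ => hB⟩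
  choose Bf hBf using hex
  refine ⟨(S ×ˢ S).biUnion Bf, fun ℓ hℓ hℓB Rm x hx y hy hxy => ?_⟩
  by_contra hne
  have hmem : (x, y) ∈ S ×ˢ S := Finset.mem_product.2 ⟨hx, hy⟩
  have hnot : ℓ ∉ Bf (x, y) := fun h => hℓB (Finset.mem_biUnion.2 ⟨(x, y), hmem, h⟩)
  apply hBf (x, y) hne ℓ hℓ hnot Rm
  rw [map_sub, hxy, sub_self]

/-- a root of the characteristic polynomial of a matrix of finite order is a root of unity. -/
private theorem LiftRep_pow_eq_one_of_root {n : ℕ} (A : Matrix (Fin 2) (Fin 2) ℂ) (hA : A ^ n = 1)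
    {α : ℂ} (hα : α ^ 2 - A.trace * α + A.det = 0) : α ^ n = 1 := by
  have hdet : (α • (1 : Matrix (Fin 2) (Fin 2) ℂ) - A).det = 0 := by
    rw [← hα, Matrix.det_fin_two, Matrix.det_fin_two, Matrix.trace_fin_two]
    simp
    ring
  obtain ⟨v, hv0, hv⟩ := Matrix.exists_mulVec_eq_zero_iff.2 hdet
  have hAv : A.mulVec v = α • v := by
    rw [Matrix.sub_mulVec, Matrix.smul_mulVec, Matrix.one_mulVec, sub_eq_zero] at hv
    exact hv.symm
  have hpow : ∀ j : ℕ, (A ^ j).mulVec v = α ^ j • v := by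
    intro j
    induction j with
    | zero => simp
    | succ j ih =>
      rw [pow_succ, ← Matrix.mulVec_mulVec, hAv, Matrix.mulVec_smul, ih, smul_smul, pow_succ,
        mul_comm]
  have h1 := hpow n
  rw [hA, Matrix.one_mulVec] at h1
  have h2 : (α ^ n - 1) • v = 0 := by
    rw [sub_smul, one_smul, ← h1, sub_self]
  exact sub_eq_zero.1 ((smul_eq_zero.1 h2).resolve_right hv0)

/-- A complex `2 × 2` matrix with `A ^ n = 1`: `trace A = α + β`, `det A = α β` with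
`α ^ n = β ^ n = 1` (roots of the characteristic polynomial are eigenvalues). -/
theorem exists_roots_of_pow_eq_one {n : ℕ} (A : Matrix (Fin 2) (Fin 2) ℂ) (hA : A ^ n = 1) :
    ∃ α β : ℂ, α ^ n = 1 ∧ β ^ n = 1 ∧ A.trace = α + β ∧ A.det = α * β := by
  let P : ℂ[X] := X ^ 2 - C A.trace * X + C A.det
  have hPdeg : P.degree = 2 := by
    have : P = C 1 * X ^ 2 + C (-A.trace) * X + C A.det := by
      simp only [P, C_1, C_neg]; ring
    rw [this]
    exact degree_quadratic one_ne_zero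
  obtain ⟨α, hα⟩ := IsAlgClosed.exists_root P (by rw [hPdeg]; decide)
  have hα' : α ^ 2 - A.trace * α + A.det = 0 := by
    have := hα
    simp only [P, Polynomial.IsRoot.def, eval_add, eval_sub, eval_pow, eval_X, eval_mul,
      eval_C] at this
    exact this
  have hβ' : (A.trace - α) ^ 2 - A.trace * (A.trace - α) + A.det = 0 := by
    linear_combination hα'
  exact ⟨α, A.trace - α, LiftRep_pow_eq_one_of_root A hA hα', LiftRep_pow_eq_one_of_root A hA hβ',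
    by ring, by linear_combination hα'⟩

/-- roots of unity in `ℂ` are algebraic integers. -/
private theorem LiftRep_exists_zbar {n : ℕ} (hn : 0 < n) {α : ℂ} (hα : α ^ n = 1) :
    ∃ x : Zbar, x ^ n = 1 ∧ (x : ℂ) = α := by
  have hint : IsIntegral ℤ α := IsIntegral.of_pow hn (by rw [hα]; exact isIntegral_one)
  exact ⟨⟨α, hint⟩, Subtype.ext hα, rfl⟩

/-- comparison of the coefficients of two quadratic polynomials. -/
private theorem LiftRep_coeff_eq {κ : Type*} [Field κ] {a b a' b' : κ}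
    (h : (X ^ 2 - C a * X + C b : κ[X]) = X ^ 2 - C a' * X + C b') : a = a' ∧ b = b' := by
  have h1 := congrArg (fun P : κ[X] => P.coeff 1) h
  have h0 := congrArg (fun P : κ[X] => P.coeff 0) h
  simp only [coeff_add, coeff_sub, coeff_X_pow, coeff_C_mul, coeff_X_one, coeff_X_zero, coeff_C_zero,
    coeff_C_succ, mul_one, mul_zero] at h1 h0
  norm_num at h1 h0
  exact ⟨h1, h0⟩

/-- **F5**.  `n := A₀!`, `μ := ` the finite set of `x : Zbar` with `x ^ n = 1`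
(`Polynomial.nthRoots`/`nthRootsFinset`, `n > 0`), `Σ := {x + y} ∪ {x * y}`, `x y ∈ μ`.  `exists_injOn Σ` gives `B₁`.
Pick a prime `ℓ ∉ B ∪ B₁ ∪ B'`, `Rm`, `ρ` attached with `|Img ρ| ≤ A₀`, `ℓ ∤ |Img ρ|`.
`Lift.exists_complex_lift Rm.φ Rm.surj (G := Img ρ) (hG : (Nat.card (Img ρ) : κ) ≠ 0) ρ.finrank_eq ρ_G`
(`ρ_G := (Units.coeHom _).comp (Img ρ).subtype`) gives `ρ' : Img ρ →* GL₂(ℂ)`;
`r := ρ'.comp ρ.ρ.toHomUnits.rangeRestrict`.  Finite level: `level_toHomUnits`.  Inertia at `p ∤ N ℓ`: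
`hρ.unram`.  Frobenius `σ` at `p ∤ N ℓ`: `(ρ' g) ^ n = 1` (`|Img ρ|` divides `n`), so by
`exists_roots_of_pow_eq_one` `t = trace`, `d = det` lie in `Σ`; by `exists_roots` so do `aZ p`, `eZ p`; comparing
`charpoly (ρ σ) = X² - φ t X + φ d = X² - φ(aZ p) X + φ(eZ p)` (coefficients) and injectivity of `φ` on
`Σ` give `t = aZ p`, `d = eZ p`. -/
theorem exists_goodAway {D : W1Data N} {hD : D.Good} {A₀ : ℕ} {B : Finset ℕ}
    (h : Bounded D hD A₀ B) (B' : Finset ℕ) :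
    ∃ ℓ : ℕ, ℓ.Prime ∧ ℓ ∉ B' ∧ ∃ r : GQ →* GL (Fin 2) ℂ, GoodAway D ℓ r := by
  classical
  set n : ℕ := A₀.factorial with hn_def
  have hn : 0 < n := Nat.factorial_pos A₀
  let μ : Finset Zbar := nthRootsFinset n (1 : Zbar)
  have hμ : ∀ x : Zbar, x ∈ μ ↔ x ^ n = 1 := fun x => mem_nthRootsFinset hn 1
  let Sg : Finset Zbar := (μ ×ˢ μ).image (fun x => x.1 + x.2) ∪ (μ ×ˢ μ).image (fun x => x.1 * x.2)
  have hadd : ∀ (z : Zbar) (α β : ℂ), α ^ n = 1 → β ^ n = 1 → (z : ℂ) = α + β → z ∈ Sg := by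
    intro z α β hα hβ hz
    obtain ⟨x, hx, rfl⟩ := LiftRep_exists_zbar hn hα
    obtain ⟨y, hy, rfl⟩ := LiftRep_exists_zbar hn hβ
    refine Finset.mem_union_left _ (Finset.mem_image.2 ⟨(x, y), ?_, Subtype.ext hz.symm⟩)
    exact Finset.mem_product.2 ⟨(hμ x).2 hx, (hμ y).2 hy⟩
  have hmul : ∀ (z : Zbar) (α β : ℂ), α ^ n = 1 → β ^ n = 1 → (z : ℂ) = α * β → z ∈ Sg := by
    intro z α β hα hβ hz
    obtain ⟨x, hx, rfl⟩ := LiftRep_exists_zbar hn hα
    obtain ⟨y, hy, rfl⟩ := LiftRep_exists_zbar hn hβ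
    refine Finset.mem_union_right _ (Finset.mem_image.2 ⟨(x, y), ?_, Subtype.ext hz.symm⟩)
    exact Finset.mem_product.2 ⟨(hμ x).2 hx, (hμ y).2 hy⟩
  obtain ⟨B₁, hB₁⟩ := exists_injOn Sg
  obtain ⟨ℓ, hℓ, hℓn⟩ := Nat.infinite_setOfPred_prime.exists_notMem_finset (B ∪ B₁ ∪ B')
  have hℓ : ℓ.Prime := hℓ
  simp only [Finset.mem_union, not_or] at hℓn
  obtain ⟨⟨hℓB, hℓB₁⟩, hℓB'⟩ := hℓn
  obtain ⟨Rm⟩ := exists_resMap hℓ
  obtain ⟨ρ, hρ, hcard, hndvd⟩ := h.ex ℓ hℓ hℓB Rm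
  have hinj := hB₁ ℓ hℓ hℓB₁ Rm
  have hG : (Nat.card (Img ρ) : Rm.κ) ≠ 0 := by
    rw [Ne, CharP.cast_eq_zero_iff Rm.κ ℓ]
    exact hndvd
  obtain ⟨ρ', hρ'⟩ := Lift.exists_complex_lift Rm.φ Rm.surj hG ρ.finrank_eq
    ((Units.coeHom _).comp (Img ρ).subtype)
  have hdvd : Nat.card (Img ρ) ∣ n := Nat.dvd_factorial Nat.card_pos hcard
  have hone : ∀ σ : GQ, ρ.ρ σ = 1 → (ρ'.comp ρ.ρ.toHomUnits.rangeRestrict) σ = 1 := by
    intro σ hσ
    have h1 : ρ.ρ.toHomUnits.rangeRestrict σ = 1 := by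
      apply Subtype.ext
      apply Units.ext
      exact hσ
    rw [MonoidHom.comp_apply, h1, map_one]
  refine ⟨ℓ, hℓ, hℓB', ρ'.comp ρ.ρ.toHomUnits.rangeRestrict, ?_, ?_⟩
  · obtain ⟨L, hL, hLσ⟩ := ρ.factorsThroughFiniteLevel
    exact ⟨L, hL, fun σ hσ => hone σ (hLσ σ hσ)⟩
  · intro p hp hpN A hA
    refine ⟨fun σ hσ => hone σ (hρ.unram p hp hpN A hA σ hσ), fun σ hσ => ?_⟩
    have hpN' : ¬ p ∣ N := fun hd => hpN (Dvd.dvd.mul_right hd ℓ)
    obtain ⟨t, d, ht, hd, hchar⟩ := hρ' (ρ.ρ.toHomUnits.rangeRestrict σ)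
    have hfrob := hρ.frob p hp hpN A hA σ hσ
    have hsame : ((Units.coeHom _).comp (Img ρ).subtype) (ρ.ρ.toHomUnits.rangeRestrict σ) =
        ρ.ρ σ := rfl
    rw [hsame, hfrob] at hchar
    obtain ⟨e1, e2⟩ := LiftRep_coeff_eq hchar
    -- the lifted matrix has order dividing `n`
    have hpow : ((ρ' (ρ.ρ.toHomUnits.rangeRestrict σ) : GL (Fin 2) ℂ) :
        Matrix (Fin 2) (Fin 2) ℂ) ^ n = 1 := by
      obtain ⟨c, hc⟩ := hdvd
      rw [← Units.val_pow_eq_pow_val, ← map_pow, hc, pow_mul, pow_card_eq_one', one_pow, map_one,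
        Units.val_one]
    obtain ⟨α, β, hα, hβ, htr, hdet⟩ := exists_roots_of_pow_eq_one _ hpow
    obtain ⟨α', β', hα', hβ', htr', hdet'⟩ := exists_roots h p hp hpN'
    have ht1 : t ∈ Sg := hadd t α β hα hβ (ht.trans htr)
    have hd1 : d ∈ Sg := hmul d α β hα hβ (hd.trans hdet)
    have ht2 : aZ D hD p ∈ Sg := hadd _ α' β' hα' hβ' htr'
    have hd2 : eZ D p ∈ Sg := hmul _ α' β' hα' hβ' hdet'
    have et : aZ D hD p = t := hinj ht2 ht1 e1
    have ed : eZ D p = d := hinj hd2 hd1 e2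
    refine ⟨?_, ?_⟩
    · show ((ρ' (ρ.ρ.toHomUnits.rangeRestrict σ) : GL (Fin 2) ℂ) :
        Matrix (Fin 2) (Fin 2) ℂ).trace = _
      rw [← ht, ← et]
      rfl
    · show ((ρ' (ρ.ρ.toHomUnits.rangeRestrict σ) : GL (Fin 2) ℂ) :
        Matrix (Fin 2) (Fin 2) ℂ).det = _
      rw [← hd, ← ed]
      rfl

end Fermat.Agent.S48.Final
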