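import Fermat.Agent.S48.Final.Attach
import Fermat.Agent.S48.Final.Bound
import Fermat.Agent.S48.Final.Glue
import Fermat.Agent.S48.Final.Irred

/-!
# S48 / FINAL : the contracts imply the conclusion of S48
-/

set_option autoImplicit false

open ModularFormClass Polynomial

noncomputable section

namespace Fermat.Agent.S48.Final

variable {N : ℕ} [NeZero N]

theorem exists_bounded (hC : StmtCheb) (hW : StmtWT1) (hM : StmtModL2) (D : W1Data N)
    (hD : D.Good) : ∃ (A₀ : ℕ) (B : Finset ℕ), Bounded D hD A₀ B := by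
  obtain ⟨B₁, h₁⟩ := exists_attached hW hM D hD
  obtain ⟨A₀, B₂, h₂⟩ := card_img_le hC D hD
  refine ⟨A₀, B₁ ∪ B₂, ⟨fun ℓ hℓ hℓB Rm => ?_⟩⟩
  rw [Finset.mem_union, not_or] at hℓB
  obtain ⟨ρ, hρ⟩ := h₁ ℓ hℓ hℓB.1 Rm
  exact ⟨ρ, hρ, h₂ ℓ hℓ hℓB.2 Rm ρ hρ⟩

theorem conclusion_of_good (hC : StmtCheb) (hW : StmtWT1) (hM : StmtModL2) (D : W1Data N)
    (hD : D.Good) : Conclusion D := by
  obtain ⟨A₀, B, hB⟩ := exists_bounded hC hW hM D hD
  obtain ⟨ℓ, hℓ, -, r, hr⟩ := exists_goodAway hB ∅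
  obtain ⟨ℓ', hℓ', hne, r', hr'⟩ := exists_goodAway hB {ℓ}
  have hne' : ℓ ≠ ℓ' := fun h => hne (by rw [h]; exact Finset.mem_singleton_self _)
  have h1 := goodAway_one hℓ hℓ' hne' hr hr'
  refine ⟨r, h1.1, isIrreducible hC D h1, fun p hp hpN A hA => ?_⟩
  exact h1.2 p hp (by rwa [mul_one]) A hA

/-- **FINAL**: the four remaining contracts imply the conclusion of S48 for all weight one data. -/
theorem conclusion (hA : StmtAlg) (hC : StmtCheb) (hW : StmtWT1) (hM : StmtModL2)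
    (D : W1Data N) : Conclusion D := by
  obtain ⟨N', hN', D', hD', hdvd, hcoef⟩ := hA N D
  obtain ⟨r, h1, h2, h3⟩ := conclusion_of_good hC hW hM D' hD'
  refine ⟨r, h1, h2, fun p hp hpN A hA' => ?_⟩
  have hpN' : ¬ p ∣ N' := fun h => hpN ((hdvd p hp).1 h)
  obtain ⟨h4, h5⟩ := h3 p hp hpN' A hA'
  refine ⟨h4, fun σ hσ => ?_⟩
  obtain ⟨h6, h7⟩ := h5 σ hσ
  rw [h6, h7]
  exact hcoef p hp hpN

end Fermat.Agent.S48.Final
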