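import Fermat.Agent.S48.Final.Basic
import Fermat.Agent.Lib.Frobenius

/-!
# S48 / FINAL, leaf F4 : the roots of `X² - a_p X + ε(p)` are roots of unity of bounded order
-/

set_option autoImplicit false

open ModularFormClass Polynomial

noncomputable section

namespace Fermat.Agent.S48.Final

variable {N : ℕ} [NeZero N]

/-- One root: if `x + y = a_p`, `x y = ε(p)` in `Zbar` then `x ^ (A₀!) = 1`. -/
theorem Roots_pow_eq_one {D : W1Data N} {hD : D.Good} {A₀ : ℕ} {B : Finset ℕ}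
    (h : Bounded D hD A₀ B) (p : ℕ) (hp : p.Prime) (hpN : ¬ p ∣ N) (x y : Zbar)
    (hadd : x + y = aZ D hD p) (hmul : x * y = eZ D p) : x ^ A₀.factorial = 1 := by
  classical
  by_contra hne
  have hx : x ^ A₀.factorial - 1 ≠ 0 := sub_ne_zero.2 hne
  obtain ⟨B₁, hB₁⟩ := exists_bad_primes _ hx
  obtain ⟨ℓ, hℓge, hℓ⟩ := Nat.exists_infinite_primes ((B ∪ B₁ ∪ {p}).sup id + 1)
  have hnot : ℓ ∉ B ∪ B₁ ∪ {p} := by
    intro hmem
    have : id ℓ ≤ (B ∪ B₁ ∪ {p}).sup id := Finset.le_sup hmem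
    simp only [id] at this
    omega
  have hℓB : ℓ ∉ B := fun hm => hnot (by simp [hm])
  have hℓB₁ : ℓ ∉ B₁ := fun hm => hnot (by simp [hm])
  have hℓp : ℓ ≠ p := fun hm => hnot (by simp [hm])
  obtain ⟨Rm⟩ := exists_resMap hℓ
  obtain ⟨ρ, hatt, hcard, -⟩ := h.ex ℓ hℓ hℓB Rm
  obtain ⟨A, σ, hA, hσ⟩ := Fermat.Agent.Lib.Frobenius.exists_frobenius hp
  have hpNℓ : ¬ p ∣ N * ℓ := by
    intro hd
    rcases (Nat.Prime.dvd_mul hp).1 hd with h1 | h1
    · exact hpN h1
    · exact hℓp ((Nat.prime_dvd_prime_iff_eq hp hℓ).1 h1).symm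
  have hchar := hatt.frob p hp hpNℓ A hA σ hσ
  have hroot : (LinearMap.charpoly (ρ.ρ σ)).IsRoot (Rm.φ x) := by
    rw [hchar, Polynomial.IsRoot.def]
    simp only [eval_add, eval_sub, eval_pow, eval_X, eval_mul, eval_C]
    rw [← hadd, ← hmul, map_add, map_mul]
    ring
  have heig : Module.End.HasEigenvalue (ρ.ρ σ) (Rm.φ x) :=
    (Module.End.hasEigenvalue_iff_isRoot_charpoly (ρ.ρ σ) (Rm.φ x)).2 hroot
  obtain ⟨v, hv⟩ := heig.exists_hasEigenvector
  -- the order of the image divides `A₀!`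
  have hdvd : Nat.card (Img ρ) ∣ A₀.factorial := Nat.dvd_factorial Nat.card_pos hcard
  have hg : (⟨ρ.ρ.toHomUnits σ, ⟨σ, rfl⟩⟩ : Img ρ) ^ A₀.factorial = 1 := by
    obtain ⟨c, hc⟩ := hdvd
    rw [hc, pow_mul, pow_card_eq_one', one_pow]
  have hpow : (ρ.ρ σ) ^ A₀.factorial = 1 := by
    have h1 := congrArg (fun g : Img ρ => (((g : (Module.End Rm.κ ρ.V)ˣ)) : Module.End Rm.κ ρ.V)) hg
    simpa using h1
  have h2 := hv.pow_apply A₀.factorial
  rw [hpow, Module.End.one_apply] at h2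
  have h3 : ((Rm.φ x) ^ A₀.factorial - 1) • v = 0 := by
    rw [sub_smul, one_smul, ← h2, sub_self]
  have h4 : (Rm.φ x) ^ A₀.factorial - 1 = 0 := (smul_eq_zero.1 h3).resolve_right hv.2
  apply hB₁ ℓ hℓ hℓB₁ Rm
  rw [map_sub, map_pow, map_one, h4]

/-- **F4**.  Let `n = A₀!`.  Let `α β : ℂ` be the roots of `X² - a_p X + ε(p)`; they are integral
over `ℤ`, and `Roots_pow_eq_one` applies to both of them. -/
theorem exists_roots {D : W1Data N} {hD : D.Good} {A₀ : ℕ} {B : Finset ℕ}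
    (h : Bounded D hD A₀ B) (p : ℕ) (hp : p.Prime) (hpN : ¬ p ∣ N) :
    ∃ α β : ℂ, α ^ A₀.factorial = 1 ∧ β ^ A₀.factorial = 1 ∧
      qCoeff D.f p = α + β ∧ D.ε (p : ZMod N) = α * β := by
  set a : ℂ := qCoeff D.f p with ha
  set e : ℂ := D.ε (p : ZMod N) with he
  have haI : IsIntegral ℤ a := hD.integral p
  have heI : IsIntegral ℤ e := isIntegral_eps D.ε _
  -- a root
  let P : ℂ[X] := X ^ 2 - C a * X + C e
  have hPdeg : P.degree = 2 := by
    have : P = C 1 * X ^ 2 + C (-a) * X + C e := by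
      simp only [P, C_1, C_neg]; ring
    rw [this]
    exact degree_quadratic one_ne_zero
  obtain ⟨α, hα⟩ := IsAlgClosed.exists_root P (by rw [hPdeg]; decide)
  have hα' : α ^ 2 - a * α + e = 0 := by
    have := hα
    simp only [P, Polynomial.IsRoot.def, eval_add, eval_sub, eval_pow, eval_X, eval_mul,
      eval_C] at this
    exact this
  have hαI : IsIntegral ℤ α := by
    have h1 : IsIntegral Zbar α := by
      refine ⟨X ^ 2 - C (aZ D hD p) * X + C (eZ D p), ?_, ?_⟩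
      · have : (X ^ 2 - C (aZ D hD p) * X + C (eZ D p) : Zbar[X]) =
            C 1 * X ^ 2 + C (-(aZ D hD p)) * X + C (eZ D p) := by
          simp only [C_1, C_neg]; ring
        rw [this, Monic, leadingCoeff_quadratic one_ne_zero]
      · simp only [eval₂_add, eval₂_sub, eval₂_pow, eval₂_X, eval₂_mul, eval₂_C]
        exact hα'
    exact isIntegral_trans α h1
  have hβI : IsIntegral ℤ (a - α) := haI.sub hαI
  let x : Zbar := ⟨α, hαI⟩
  let y : Zbar := ⟨a - α, hβI⟩
  have hadd : x + y = aZ D hD p := by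
    apply Subtype.ext
    show α + (a - α) = a
    ring
  have hmul : x * y = eZ D p := by
    apply Subtype.ext
    show α * (a - α) = e
    linear_combination -hα'
  have h1 := Roots_pow_eq_one h p hp hpN x y hadd hmul
  have h2 := Roots_pow_eq_one h p hp hpN y x (by rw [add_comm]; exact hadd)
    (by rw [mul_comm]; exact hmul)
  refine ⟨α, a - α, ?_, ?_, by ring, ?_⟩
  · exact congrArg (fun z : Zbar => (z : ℂ)) h1
  · exact congrArg (fun z : Zbar => (z : ℂ)) h2
  · linear_combination hα'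

end Fermat.Agent.S48.Final
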